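/-
Project MAZUR (S15), cell [GEO] (torsor version of FF): THE LOCAL SETTING `mzo_Ctx` of [HOPF] at a
place `A` of `Q̄` over `ℓ`, from FF's closed level theorem `ffi_lvi` (helper5).  Prefix `mzg_ctx_`.

`L := Q̄`, `Γ := I_A = A.inertiaSubgroupIn ℚ` (acting on `Q̄` through the subgroup action),
`O := A ∩ Q̄^{I_A} = ffi_O A (ffi_L A)` (a discrete valuation ring with uniformiser `ℓ`, `ffi_lvi`).

* `mzg_ctx ℓ A hA : mzo_Ctx ℓ O Q̄ A Γ`;
* the instances used everywhere in [GEO] → [HOPF] are the canonical ones: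
  `Subgroup.mulSemiringAction` on `Q̄`, `Subgroup.instDistribMulActionSubtypeMem` on
  `J₀(N)[m]` (from `ff_instTorsAction`), `ffi_instAlgOQb` for `O → Q̄`; `mzg_ctx_smul_def`,
  `mzg_ctx_smul_tors` unfold them.
-/
import Mathlib
import Fermat.Agent.FF.Inst.LevelInertia
import Fermat.Agent.MZ.Hopf.Defs

set_option autoImplicit false

noncomputable section

namespace Fermat.Agent.MZ

open Fermat.Agent.FF ModularCurve

/-- the inertia group of `A` acts on `Q̄` through `G_ℚ` -/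
theorem mzg_ctx_smul_def (A : ValuationSubring ff_Qb) (σ : ↥(A.inertiaSubgroupIn ℚ)) (a : ff_Qb) :
    σ • a = (σ : ff_GQ) a := rfl

/-- the inertia group of `A` acts on the torsion of `J₀(N)` through `G_ℚ` -/
theorem mzg_ctx_smul_tors (A : ValuationSubring ff_Qb) (N : ℕ) [NeZero N] (m : ℤ)
    (σ : ↥(A.inertiaSubgroupIn ℚ)) (x : ↥(Submodule.torsionBy ℤ (JZero N) m)) :
    ((σ • x : ↥(Submodule.torsionBy ℤ (JZero N) m)) : JZero N) = (σ : ff_GQ) • (x : JZero N) :=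
  rfl

/-- the structure map `O = A ∩ Q̄^{I_A} → Q̄` is the inclusion -/
theorem mzg_ctx_algebraMap (A : ValuationSubring ff_Qb) (o : ↥(ffi_O A ↥(ffi_L A))) :
    algebraMap ↥(ffi_O A ↥(ffi_L A)) ff_Qb o = ((o : ↥(ffi_L A)) : ff_Qb) := rfl

/-- **The local setting of [HOPF] at a place `A` of `Q̄` over `ℓ`.** -/
theorem mzg_ctx (ℓ : ℕ) [hℓ : Fact ℓ.Prime] (A : ValuationSubring ff_Qb)
    (hA : A.LiesOverPrime ℓ) :
    mzo_Ctx ℓ ↥(ffi_O A ↥(ffi_L A)) ff_Qb A ↥(A.inertiaSubgroupIn ℚ) := by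
  have lvl := ffi_lvi ℓ A hA
  refine ⟨hℓ.out, ?_, ?_, hA, Nat.cast_ne_zero.2 hℓ.out.ne_zero, ?_, ?_⟩
  · -- `O = A ∩ Q̄^{I_A}`
    ext a
    constructor
    · rintro ⟨o, rfl⟩
      refine ⟨o.2, fun σ => ?_⟩
      exact (lvl.fix _).1 ⟨(o : ↥(ffi_L A)), rfl⟩ (σ : ff_GQ) σ.2
    · rintro ⟨haA, hfix⟩
      obtain ⟨b, hb⟩ := (lvl.fix a).2 (fun σ hσ => hfix ⟨σ, hσ⟩)
      exact ⟨⟨b, by rw [ffi_mem_O, hb]; exact haA⟩, hb⟩
  · -- inertia
    intro σ a ha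
    exact ((Fermat.Agent.S55.tl_mem_inertiaSubgroupIn_iff A (σ : ff_GQ)).1 σ.2).2 a ha
  · -- `ℓ` is a uniformiser
    intro a ha hfix
    obtain ⟨b, hb⟩ := (lvl.fix a).2 (fun σ hσ => hfix ⟨σ, hσ⟩)
    have h := lvl.unr b (by rw [hb]; exact ha)
    rwa [hb] at h
  · -- full residue field
    intro a ha
    obtain ⟨c, hcA, hc⟩ := lvl.res ⟨a, ha⟩
    exact ⟨⟨c, hcA⟩, hc⟩

/-- `O = A ∩ Q̄^{I_A}` is a discrete valuation ring (instance-free form of `ffi_LvlOK.dvr`). -/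
theorem mzg_ctx_dvr (ℓ : ℕ) [Fact ℓ.Prime] (A : ValuationSubring ff_Qb)
    (hA : A.LiesOverPrime ℓ) : IsDiscreteValuationRing ↥(ffi_O A ↥(ffi_L A)) :=
  (ffi_lvi ℓ A hA).dvr

end Fermat.Agent.MZ
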