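/-
Project MAZUR (S15), cell [GEO] (torsor version of FF), leaf (G-ADD), part 1 (helper5).
Prefix `mzg_`.

TWO families of points `(M₁, PK₁, Pκ₁)`, `(M₂, PK₂, Pκ₂)` over the same package, both satisfying
`ffa_HHyp`; `H₁ := ff_symAlg PK₁`, `H₂ := ff_symAlg PK₂`.  Then `H₁ ⊗[O] H₂` is a NICE base with
point set `M₁ × M₂` (two-family version of `ffa_ord_nice2` of `FF/Add/Ord.lean`).
-/
import Mathlib
import Fermat.Agent.FF.Add.Ord

set_option autoImplicit false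

noncomputable section

namespace Fermat.Agent.MZ

open Fermat.Agent.FF
open scoped TensorProduct

section Ord2

variable {O : Type} [CommRing O] {𝒜 : Type} [CommRing 𝒜] [Algebra O 𝒜]
  {Kb : Type} [Field Kb] [Algebra O Kb] {κ : Type} [Field κ] [Algebra O κ]
  {M₁ M₂ : Type} {g : ℕ}
  {PK₁ : M₁ → Fin g → 𝒜 →ₐ[O] Kb} {Pκ₁ : M₁ → Fin g → 𝒜 →ₐ[O] κ}
  {PK₂ : M₂ → Fin g → 𝒜 →ₐ[O] Kb} {Pκ₂ : M₂ → Fin g → 𝒜 →ₐ[O] κ}
  {Av : Subring Kb} {res : ↥Av →+* κ}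

/-- evaluation at `(x, y)` on `H₁ ⊗ H₂` -/
def mzg_ev2 (PK₁ : M₁ → Fin g → 𝒜 →ₐ[O] Kb) (PK₂ : M₂ → Fin g → 𝒜 →ₐ[O] Kb) (p : M₁ × M₂) :
    ↥(ff_symAlg PK₁) ⊗[O] ↥(ff_symAlg PK₂) →ₐ[O] Kb :=
  Algebra.TensorProduct.lift (ffa_ev PK₁ p.1) (ffa_ev PK₂ p.2) (fun _ _ => Commute.all _ _)

/-- the closed point `(x, y)` of `H₁ ⊗ H₂` -/
def mzg_evκ2 (hH₁ : ffa_HHyp PK₁ Pκ₁ Av res) (hH₂ : ffa_HHyp PK₂ Pκ₂ Av res) (p : M₁ × M₂) :
    ↥(ff_symAlg PK₁) ⊗[O] ↥(ff_symAlg PK₂) →ₐ[O] κ :=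
  Algebra.TensorProduct.lift (ffa_ord_evκ hH₁ p.1) (ffa_ord_evκ hH₂ p.2)
    (fun _ _ => Commute.all _ _)

theorem mzg_ev2_tmul (p : M₁ × M₂) (a : ↥(ff_symAlg PK₁)) (b : ↥(ff_symAlg PK₂)) :
    mzg_ev2 PK₁ PK₂ p (a ⊗ₜ[O] b) = (a : M₁ → Kb) p.1 * (b : M₂ → Kb) p.2 := by
  unfold mzg_ev2
  rw [Algebra.TensorProduct.lift_tmul]
  rfl

theorem mzg_evκ2_tmul (hH₁ : ffa_HHyp PK₁ Pκ₁ Av res) (hH₂ : ffa_HHyp PK₂ Pκ₂ Av res)
    (p : M₁ × M₂) (a : ↥(ff_symAlg PK₁)) (b : ↥(ff_symAlg PK₂)) :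
    mzg_evκ2 hH₁ hH₂ p (a ⊗ₜ[O] b) = ffa_ord_evκ hH₁ p.1 a * ffa_ord_evκ hH₂ p.2 b := by
  unfold mzg_evκ2
  rw [Algebra.TensorProduct.lift_tmul]

/-- the values of the generic points of `H₁ ⊗ H₂` are in `Av` and reduce to the closed points -/
theorem mzg_val2 (hH₁ : ffa_HHyp PK₁ Pκ₁ Av res) (hH₂ : ffa_HHyp PK₂ Pκ₂ Av res) (p : M₁ × M₂)
    (b : ↥(ff_symAlg PK₁) ⊗[O] ↥(ff_symAlg PK₂)) :
    ∃ h : mzg_ev2 PK₁ PK₂ p b ∈ Av, res ⟨_, h⟩ = mzg_evκ2 hH₁ hH₂ p b := by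
  induction b using TensorProduct.induction_on with
  | zero =>
    refine ⟨by rw [map_zero]; exact Av.zero_mem, ?_⟩
    have : (⟨mzg_ev2 PK₁ PK₂ p 0, by rw [map_zero]; exact Av.zero_mem⟩ : ↥Av) = 0 :=
      Subtype.ext (map_zero _)
    rw [this, map_zero, map_zero]
  | tmul a b =>
    have h1 := ffa_ord_mem_Av hH₁ a p.1
    have h2 := ffa_ord_mem_Av hH₂ b p.2
    have hm : mzg_ev2 PK₁ PK₂ p (a ⊗ₜ[O] b) ∈ Av := by
      rw [mzg_ev2_tmul]; exact Av.mul_mem h1 h2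
    refine ⟨hm, ?_⟩
    have : (⟨mzg_ev2 PK₁ PK₂ p (a ⊗ₜ[O] b), hm⟩ : ↥Av) =
        ⟨(a : M₁ → Kb) p.1, h1⟩ * ⟨(b : M₂ → Kb) p.2, h2⟩ :=
      Subtype.ext (mzg_ev2_tmul p a b)
    rw [this, map_mul, mzg_evκ2_tmul]
    rfl
  | add x y hx hy =>
    obtain ⟨h1, e1⟩ := hx
    obtain ⟨h2, e2⟩ := hy
    have hm : mzg_ev2 PK₁ PK₂ p (x + y) ∈ Av := by
      rw [map_add]; exact Av.add_mem h1 h2
    refine ⟨hm, ?_⟩
    have : (⟨mzg_ev2 PK₁ PK₂ p (x + y), hm⟩ : ↥Av) = ⟨_, h1⟩ + ⟨_, h2⟩ :=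
      Subtype.ext (map_add _ _ _)
    rw [this, map_add, map_add, e1, e2]

/-- `H₁ ⊗ H₂ → Map(M₁ × M₂, Kb)` is injective (`indep` twice) -/
theorem mzg_inj2 (hinj : Function.Injective (algebraMap O Kb))
    (hH₁ : ffa_HHyp PK₁ Pκ₁ Av res) (hH₂ : ffa_HHyp PK₂ Pκ₂ Av res)
    [Module.Free O ↥(ff_symAlg PK₁)] [Module.Free O ↥(ff_symAlg PK₂)]
    (b : ↥(ff_symAlg PK₁) ⊗[O] ↥(ff_symAlg PK₂)) (hb : ∀ p, mzg_ev2 PK₁ PK₂ p b = 0) :
    b = 0 := by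
  have := hH₁.fin
  have := hH₂.fin
  let e₁ := Module.Free.chooseBasis O ↥(ff_symAlg PK₁)
  let e₂ := Module.Free.chooseBasis O ↥(ff_symAlg PK₂)
  let E := e₁.tensorProduct e₂
  -- the bases are `Kb`-linearly independent
  have hindO₁ : LinearIndependent O (fun i => ((e₁ i : ↥(ff_symAlg PK₁)) : M₁ → Kb)) := by
    have := e₁.linearIndependent.map' (ff_symAlg PK₁).val.toLinearMap
      (LinearMap.ker_eq_bot.2 Subtype.val_injective)
    exact this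
  have hindO₂ : LinearIndependent O (fun i => ((e₂ i : ↥(ff_symAlg PK₂)) : M₂ → Kb)) := by
    have := e₂.linearIndependent.map' (ff_symAlg PK₂).val.toLinearMap
      (LinearMap.ker_eq_bot.2 Subtype.val_injective)
    exact this
  have hindK₁ : LinearIndependent Kb (fun i => ((e₁ i : ↥(ff_symAlg PK₁)) : M₁ → Kb)) :=
    hH₁.indep _ _ (fun j => (e₁ j).2) hindO₁
  have hindK₂ : LinearIndependent Kb (fun i => ((e₂ i : ↥(ff_symAlg PK₂)) : M₂ → Kb)) :=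
    hH₂.indep _ _ (fun j => (e₂ j).2) hindO₂
  rw [Fintype.linearIndependent_iff] at hindK₁ hindK₂
  -- the value of `b` at `(x, y)`
  have hval : ∀ (x : M₁) (y : M₂),
      ∑ i, (∑ j, algebraMap O Kb (E.repr b (i, j)) * (e₂ j : M₂ → Kb) y) *
      (e₁ i : M₁ → Kb) x = 0 := by
    intro x y
    have h := hb (x, y)
    rw [← E.sum_repr b, map_sum, Fintype.sum_prod_type] at h
    rw [← h]
    refine Finset.sum_congr rfl fun i _ => ?_
    rw [Finset.sum_mul]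
    refine Finset.sum_congr rfl fun j _ => ?_
    rw [map_smul, Module.Basis.tensorProduct_apply, mzg_ev2_tmul, Algebra.smul_def]
    ring
  have h1 : ∀ (y : M₂) (i),
      ∑ j, algebraMap O Kb (E.repr b (i, j)) * (e₂ j : M₂ → Kb) y = 0 := by
    intro y
    refine hindK₁ (fun i => ∑ j, algebraMap O Kb (E.repr b (i, j)) * (e₂ j : M₂ → Kb) y) ?_
    funext x
    simp only [Finset.sum_apply, Pi.smul_apply, smul_eq_mul, Pi.zero_apply]
    exact hval x y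
  have h2 : ∀ i j, algebraMap O Kb (E.repr b (i, j)) = 0 := by
    intro i
    refine hindK₂ (fun j => algebraMap O Kb (E.repr b (i, j))) ?_
    funext y
    simp only [Finset.sum_apply, Pi.smul_apply, smul_eq_mul, Pi.zero_apply]
    exact h1 y i
  have h3 : E.repr b = 0 := by
    ext ⟨i, j⟩
    apply hinj
    rw [h2 i j]
    simp
  exact (LinearEquiv.map_eq_zero_iff _).1 h3

end Ord2

section Max2

variable {O : Type} [CommRing O] {H₁ H₂ : Type} [CommRing H₁] [Algebra O H₁]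
  [CommRing H₂] [Algebra O H₂]
  {κ : Type} [Field κ] [Algebra O κ] {M₁ M₂ : Type}

/-- every maximal ideal of `H₁ ⊗ H₂` is the kernel of a closed point `(x, y)` (abstract form) -/
theorem mzg_max2_gen [Module.Finite O H₁] [Module.Finite O H₂]
    (hsurj : Function.Surjective (algebraMap O κ))
    (ev₁ : M₁ → H₁ →ₐ[O] κ) (ev₂ : M₂ → H₂ →ₐ[O] κ)
    (hmax₁ : ∀ 𝔪 : Ideal H₁, 𝔪.IsMaximal → ∃ z, 𝔪 = RingHom.ker (ev₁ z))
    (hmax₂ : ∀ 𝔪 : Ideal H₂, 𝔪.IsMaximal → ∃ z, 𝔪 = RingHom.ker (ev₂ z))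
    (𝔫 : Ideal (H₁ ⊗[O] H₂)) (h𝔫 : 𝔫.IsMaximal) :
    ∃ p : M₁ × M₂, 𝔫 = RingHom.ker
      (Algebra.TensorProduct.lift (ev₁ p.1) (ev₂ p.2) (fun _ _ => Commute.all _ _)) := by
  have hintO := algebraMap_isIntegral_iff.2 (Algebra.IsIntegral.of_finite O (H₁ ⊗[O] H₂))
  set ι₁ : H₁ →ₐ[O] H₁ ⊗[O] H₂ := Algebra.TensorProduct.includeLeft with hι₁
  set ι₂ : H₂ →ₐ[O] H₁ ⊗[O] H₂ := Algebra.TensorProduct.includeRight with hι₂
  have hint₁ : ι₁.toRingHom.IsIntegral := by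
    refine RingHom.IsIntegral.tower_top (algebraMap O H₁) _ ?_
    rw [AlgHom.toRingHom_eq_coe, AlgHom.comp_algebraMap]; exact hintO
  have hint₂ : ι₂.toRingHom.IsIntegral := by
    refine RingHom.IsIntegral.tower_top (algebraMap O H₂) _ ?_
    rw [AlgHom.toRingHom_eq_coe, AlgHom.comp_algebraMap]; exact hintO
  have hm₁ := Ideal.isMaximal_comap_of_isIntegral_of_isMaximal' _ hint₁ 𝔫
  have hm₂ := Ideal.isMaximal_comap_of_isIntegral_of_isMaximal' _ hint₂ 𝔫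
  obtain ⟨x, hx⟩ := hmax₁ _ hm₁
  obtain ⟨y, hy⟩ := hmax₂ _ hm₂
  refine ⟨(x, y), ?_⟩
  set χ : H₁ ⊗[O] H₂ →ₐ[O] κ :=
    Algebra.TensorProduct.lift (ev₁ x) (ev₂ y) (fun _ _ => Commute.all _ _) with hχ
  have hχtmul : ∀ (a : H₁) (b : H₂), χ (a ⊗ₜ[O] b) = ev₁ x a * ev₂ y b := fun a b => by
    rw [hχ, Algebra.TensorProduct.lift_tmul]
  -- the ideal generated by the two maximal ideals
  set J : Ideal (H₁ ⊗[O] H₂) :=
    (RingHom.ker (ev₁ x)).map ι₁.toRingHom ⊔ (RingHom.ker (ev₂ y)).map ι₂.toRingHom with hJ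
  have hJ𝔫 : J ≤ 𝔫 := by
    refine sup_le ?_ ?_
    · rw [← hx]; exact Ideal.map_comap_le
    · rw [← hy]; exact Ideal.map_comap_le
  have hJ₁ : ∀ a : H₁, ev₁ x a = 0 → ι₁ a ∈ J := fun a ha =>
    Ideal.mem_sup_left (Ideal.mem_map_of_mem ι₁.toRingHom ((RingHom.mem_ker).2 ha))
  have hJ₂ : ∀ a : H₂, ev₂ y a = 0 → ι₂ a ∈ J := fun a ha =>
    Ideal.mem_sup_right (Ideal.mem_map_of_mem ι₂.toRingHom ((RingHom.mem_ker).2 ha))
  have hJχ : J ≤ RingHom.ker χ := by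
    refine sup_le ?_ ?_
    · rw [Ideal.map_le_iff_le_comap]
      intro a ha
      rw [Ideal.mem_comap, RingHom.mem_ker]
      have : χ (ι₁ a) = ev₁ x a * ev₂ y 1 := hχtmul a 1
      change χ (ι₁ a) = 0
      rw [this, (RingHom.mem_ker).1 ha, zero_mul]
    · rw [Ideal.map_le_iff_le_comap]
      intro a ha
      rw [Ideal.mem_comap, RingHom.mem_ker]
      have : χ (ι₂ a) = ev₁ x 1 * ev₂ y a := hχtmul 1 a
      change χ (ι₂ a) = 0
      rw [this, (RingHom.mem_ker).1 ha, mul_zero]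
  -- every element is a constant modulo `J`
  have hconst : ∀ t : H₁ ⊗[O] H₂, ∃ o : O, t - algebraMap O _ o ∈ J := by
    intro t
    induction t using TensorProduct.induction_on with
    | zero => exact ⟨0, by rw [map_zero, sub_zero]; exact J.zero_mem⟩
    | tmul a b =>
      obtain ⟨o₁, ho₁⟩ := hsurj (ev₁ x a)
      obtain ⟨o₂, ho₂⟩ := hsurj (ev₂ y b)
      refine ⟨o₁ * o₂, ?_⟩
      have ha : ev₁ x (a - algebraMap O _ o₁) = 0 := by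
        rw [map_sub, AlgHom.commutes, ho₁, sub_self]
      have hb : ev₂ y (b - algebraMap O _ o₂) = 0 := by
        rw [map_sub, AlgHom.commutes, ho₂, sub_self]
      have hcc : (algebraMap O H₁ o₁) ⊗ₜ[O] (algebraMap O H₂ o₂) =
          (algebraMap O H₁ o₁ * algebraMap O H₁ o₂) ⊗ₜ[O] (1 : H₂) := by
        rw [Algebra.algebraMap_eq_smul_one o₂, TensorProduct.tmul_smul, TensorProduct.smul_tmul',
          Algebra.smul_def o₂ (algebraMap O H₁ o₁), mul_comm]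
      have key : a ⊗ₜ[O] b - algebraMap O (H₁ ⊗[O] H₂) (o₁ * o₂) =
          ι₁ (a - algebraMap O _ o₁) * ι₂ b +
            ι₁ (algebraMap O _ o₁) * ι₂ (b - algebraMap O _ o₂) := by
        rw [Algebra.TensorProduct.algebraMap_apply, map_mul, ← hcc]
        simp only [hι₁, hι₂, Algebra.TensorProduct.includeLeft_apply,
          Algebra.TensorProduct.includeRight_apply, TensorProduct.sub_tmul, TensorProduct.tmul_sub,
          sub_mul, mul_sub, Algebra.TensorProduct.tmul_mul_tmul, mul_one, one_mul]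
        abel
      rw [key]
      exact J.add_mem (J.mul_mem_right _ (hJ₁ _ ha)) (J.mul_mem_left _ (hJ₂ _ hb))
    | add t t' ht ht' =>
      obtain ⟨o, ho⟩ := ht
      obtain ⟨o', ho'⟩ := ht'
      refine ⟨o + o', ?_⟩
      have : t + t' - algebraMap O _ (o + o') =
          (t - algebraMap O _ o) + (t' - algebraMap O _ o') := by
        rw [map_add]; abel
      rw [this]
      exact J.add_mem ho ho'
  have hχsurj : Function.Surjective χ := by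
    intro c
    obtain ⟨o, rfl⟩ := hsurj c
    exact ⟨algebraMap O _ o, AlgHom.commutes _ _⟩
  have hχmax : (RingHom.ker χ).IsMaximal := RingHom.ker_isMaximal_of_surjective χ hχsurj
  have hle : RingHom.ker χ ≤ 𝔫 := by
    intro t ht
    obtain ⟨o, ho⟩ := hconst t
    have h1 : χ (algebraMap O _ o) = 0 := by
      have h2 := hJχ ho
      rw [RingHom.mem_ker, map_sub, (RingHom.mem_ker).1 ht, zero_sub, neg_eq_zero] at h2
      exact h2
    rw [AlgHom.commutes] at h1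
    have h3 : ev₁ x (algebraMap O _ o) = 0 := by rw [AlgHom.commutes, h1]
    have h4 : algebraMap O (H₁ ⊗[O] H₂) o ∈ J := by
      have := hJ₁ _ h3
      rwa [AlgHom.commutes] at this
    have : t = (t - algebraMap O _ o) + algebraMap O _ o := by abel
    rw [this]
    exact hJ𝔫 (J.add_mem ho h4)
  exact (hχmax.eq_of_le h𝔫.ne_top hle).symm

end Max2

section Main

variable {O : Type} [CommRing O] {𝒜 : Type} [CommRing 𝒜] [Algebra O 𝒜]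
  {Kb : Type} [Field Kb] [Algebra O Kb] {κ : Type} [Field κ] [Algebra O κ]
  {M₁ M₂ : Type} {g : ℕ}
  {PK₁ : M₁ → Fin g → 𝒜 →ₐ[O] Kb} {Pκ₁ : M₁ → Fin g → 𝒜 →ₐ[O] κ}
  {PK₂ : M₂ → Fin g → 𝒜 →ₐ[O] Kb} {Pκ₂ : M₂ → Fin g → 𝒜 →ₐ[O] κ}
  {Av : Subring Kb} {res : ↥Av →+* κ}

/-- **`H₁ ⊗ H₂` is a nice base** with point set `M₁ × M₂`. -/
theorem mzg_nice2 [IsDomain O] [IsPrincipalIdealRing O] [Finite M₁] [Finite M₂]
    (hsurj : Function.Surjective (algebraMap O κ))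
    (hinj : Function.Injective (algebraMap O Kb))
    (hH₁ : ffa_HHyp PK₁ Pκ₁ Av res) (hH₂ : ffa_HHyp PK₂ Pκ₂ Av res) :
    ffa_IsNice O Kb κ (↥(ff_symAlg PK₁) ⊗[O] ↥(ff_symAlg PK₂)) (M₁ × M₂) (mzg_ev2 PK₁ PK₂)
      (mzg_evκ2 hH₁ hH₂) := by
  have h1 := ffa_ord_nice1 hinj hH₁
  have h2 := ffa_ord_nice1 hinj hH₂
  have := h1.fin
  have := h1.free
  have := h2.fin
  have := h2.free
  refine ⟨inferInstance, inferInstance, inferInstance, ?_, ?_, ?_⟩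
  · exact fun b hb => mzg_inj2 hinj hH₁ hH₂ b hb
  · exact fun 𝔫 h𝔫 => mzg_max2_gen hsurj (ffa_ord_evκ hH₁) (ffa_ord_evκ hH₂) h1.max h2.max 𝔫 h𝔫
  · intro p b hb
    obtain ⟨h, e⟩ := mzg_val2 hH₁ hH₂ p b
    have h0 : (⟨mzg_ev2 PK₁ PK₂ p b, h⟩ : ↥Av) = 0 := Subtype.ext hb
    rw [h0, map_zero] at e
    exact e.symm

end Main

end Fermat.Agent.MZ
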