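/-
Project MAZUR (S15), cell [GEO] (torsor version of FF), leaf (G-ADD), part 2 (helper5).
Prefix `mzg_`.

THE TWO-FAMILY RESIDUATION THEOREMS.  A package `ff_IsPkg`; two finite families of points
`(M₁, PK₁, Pκ₁)`, `(M₂, PK₂, Pκ₂)` with `ffa_HHyp` (`H₁ := ff_symAlg PK₁`, `H₂ := ff_symAlg PK₂`),
a third family `(M₃, PK₃, Pκ₃)` of TARGETS, `μ : M₁ → M₂ → M₃`, the constant divisor `E₀ = P0`.

* `mzg_add_co`    : if `D₃(μ x y) + E₀ ∼ D₁(x) + D₂(y)` and `l(D₃(μ x y)) = 1` in BOTH fibres, then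
                    `(x, y) ↦ e_i(a(D₃(μ x y)))` lies in `H₁ ⊗ H₂`.
                    [`Δ` of FF: `M₁ = M₂ = M₃ = M`, `μ = +`;  (co) of a torsor order: `M₁ = X`,
                    `M₂ = G`, `M₃ = X`, `μ x g = x + g`.]
* `mzg_add_nabla` : if `D₃(μ x y) + D₁(x) ∼ D₂(y) + E₀` and `l(D₃(μ x y)) = 1` in BOTH fibres, then
                    the same conclusion.
                    [(∇) of a torsor order: `M₁ = M₂ = X`, `M₃ = G`, `μ x y = y - x`.]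

Route (as in `FF/Add/Main.lean`): `B := H₁ ⊗ H₂` is nice (`mzg_nice2`); tautological divisors over
`H₁`, `H₂` (`ffa_seamT`), pulled back to `B` (`ffa_seamBC`), multiplied (`ffa_seamMUL`); two-step
residuation (`ffa_seamRES`); characteristic polynomial (`ffa_seamCHAR`).
-/
import Mathlib
import Fermat.Agent.FF.Add.Closed
import Fermat.Agent.MZ.Geo.Ord2

set_option autoImplicit false
set_option linter.unusedSectionVars false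

noncomputable section

namespace Fermat.Agent.MZ

open Fermat.Agent.FF
open scoped TensorProduct
open Module

/-! ### decomposing an element of `H₁ ⊗ H₂` -/

section Decomp

variable {O : Type} [CommRing O] {𝒜 : Type} [CommRing 𝒜] [Algebra O 𝒜]
  {Kb : Type} [Field Kb] [Algebra O Kb] {M₁ M₂ : Type} {g : ℕ}
  (PK₁ : M₁ → Fin g → 𝒜 →ₐ[O] Kb) (PK₂ : M₂ → Fin g → 𝒜 →ₐ[O] Kb)

theorem mzg_decomp (b : ↥(ff_symAlg PK₁) ⊗[O] ↥(ff_symAlg PK₂)) :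
    ∃ (r : ℕ) (α : Fin r → M₁ → Kb) (β : Fin r → M₂ → Kb),
      (∀ j, α j ∈ ff_symAlg PK₁) ∧ (∀ j, β j ∈ ff_symAlg PK₂) ∧
      ∀ (x : M₁) (y : M₂), mzg_ev2 PK₁ PK₂ (x, y) b = ∑ j, α j x * β j y := by
  induction b using TensorProduct.induction_on with
  | zero =>
    exact ⟨0, fun j => j.elim0, fun j => j.elim0, fun j => j.elim0, fun j => j.elim0,
      fun x y => by simp⟩
  | tmul φ ψ =>
    refine ⟨1, fun _ => φ, fun _ => ψ, fun _ => φ.2, fun _ => ψ.2, fun x y => ?_⟩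
    rw [mzg_ev2_tmul]
    simp
  | add u v hu hv =>
    obtain ⟨r, α, β, hα, hβ, h⟩ := hu
    obtain ⟨r', α', β', hα', hβ', h'⟩ := hv
    refine ⟨r + r', Fin.append α α', Fin.append β β', ?_, ?_, fun x y => ?_⟩
    · intro j
      refine Fin.addCases (fun i => ?_) (fun i => ?_) j
      · rw [Fin.append_left]; exact hα i
      · rw [Fin.append_right]; exact hα' i
    · intro j
      refine Fin.addCases (fun i => ?_) (fun i => ?_) j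
      · rw [Fin.append_left]; exact hβ i
      · rw [Fin.append_right]; exact hβ' i
    · rw [map_add, h, h', Fin.sum_univ_add]
      simp only [Fin.append_left, Fin.append_right]

end Decomp

/-! ### the core: residuation + characteristic polynomial over an abstract nice base -/

section Core

variable {O : Type} [CommRing O] [IsDomain O] [IsDiscreteValuationRing O]
  {𝒜 : Type} [CommRing 𝒜] [Algebra O 𝒜] {C : Type} [CommRing C] [Algebra O C] {π : O}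
  {Kb : Type} [Field Kb] [IsAlgClosed Kb] [Algebra O Kb]
  {κ : Type} [Field κ] [IsAlgClosed κ] [Algebra O κ]
  {Λ : ℕ → Submodule O 𝒜} {lead : ∀ m, ↥(Λ m) →ₗ[O] C} {g n m0 c0 : ℕ}

/-- over a nice base `B`: relative divisors `I` (degree `2g`), `I₀` (degree `g`), fibrewise targets
`T t` (`g` points) with `T t + I₀_t ∼ I_t`, `l(T t) = 1` in both fibres: the symmetric functions of
the values of `a` at the points of `T t` are the values of ONE element of `B`. -/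
theorem mzg_add_core (hP : ff_IsPkg O 𝒜 C π Kb κ Λ lead g n m0 c0)
    (B : Type) [CommRing B] [Algebra O B] (Ξ : Type) (ξK : Ξ → B →ₐ[O] Kb) (ξκ : Ξ → B →ₐ[O] κ)
    (hB : ffa_IsNice O Kb κ B Ξ ξK ξκ)
    (I I₀ : Ideal (B ⊗[O] 𝒜)) (hI : ffa_IsRelDiv O 𝒜 B I (2 * g)) (hI₀ : ffa_IsRelDiv O 𝒜 B I₀ g)
    (TK : Ξ → Fin g → 𝒜 →ₐ[O] Kb) (Tκ : Ξ → Fin g → 𝒜 →ₐ[O] κ)
    (hLK : ∀ t, ff_LinEq O 𝒜 C Kb Λ lead (ff_ptIdeal Kb (TK t)) (ffa_fibre (ξK t) I₀)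
      (ffa_fibre (ξK t) I) ⊤)
    (hUK : ∀ t, ff_Uniq O 𝒜 C Kb Λ lead (ff_ptIdeal Kb (TK t)))
    (hLκ : ∀ t, ff_LinEq O 𝒜 C κ Λ lead (ff_ptIdeal κ (Tκ t)) (ffa_fibre (ξκ t) I₀)
      (ffa_fibre (ξκ t) I) ⊤)
    (hUκ : ∀ t, ff_Uniq O 𝒜 C κ Λ lead (ff_ptIdeal κ (Tκ t)))
    (a : 𝒜) (i : ℕ) :
    ∃ b : B, ∀ t, ξK t b = ((Finset.univ : Finset (Fin g)).val.map fun j => TK t j a).esymm i := by
  obtain ⟨DD, hDD, hDDK⟩ := ffa_seamRES O 𝒜 C π Kb κ Λ lead g n m0 c0 hP B Ξ ξK ξκ hB I I₀ hI hI₀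
    (fun t => ff_ptIdeal Kb (TK t)) (fun t => ff_ptIdeal κ (Tκ t))
    (fun t => ffa_fib_finrank_ptIdeal_K hP _) (fun t => ffa_fib_finrank_ptIdeal_κ hP _)
    hLK hUK hLκ hUκ
  obtain ⟨b, hb⟩ := ffa_seamCHAR O 𝒜 Kb hP.dedK B g DD hDD a i
  exact ⟨b, fun t => hb (ξK t) (TK t) (hDDK t)⟩

end Core

/-! ### the two theorems -/

section Main

variable {O : Type} [CommRing O] [IsDomain O] [IsDiscreteValuationRing O]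
  {𝒜 : Type} [CommRing 𝒜] [Algebra O 𝒜] {C : Type} [CommRing C] [Algebra O C] {π : O}
  {Kb : Type} [Field Kb] [IsAlgClosed Kb] [Algebra O Kb]
  {κ : Type} [Field κ] [IsAlgClosed κ] [Algebra O κ]
  {Λ : ℕ → Submodule O 𝒜} {lead : ∀ m, ↥(Λ m) →ₗ[O] C} {g n m0 c0 : ℕ}
  {M₁ M₂ M₃ : Type} [Finite M₁] [Finite M₂]
  {PK₁ : M₁ → Fin g → 𝒜 →ₐ[O] Kb} {Pκ₁ : M₁ → Fin g → 𝒜 →ₐ[O] κ}
  {PK₂ : M₂ → Fin g → 𝒜 →ₐ[O] Kb} {Pκ₂ : M₂ → Fin g → 𝒜 →ₐ[O] κ}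
  {Av : Subring Kb} {res : ↥Av →+* κ}

/-- the common set-up of the two theorems over an abstract base `B` with two maps `H₁ → B`,
`H₂ → B`: the pull-backs of the two tautological divisors. -/
theorem mzg_add_setup (hP : ff_IsPkg O 𝒜 C π Kb κ Λ lead g n m0 c0)
    [Nonempty M₁] [Nonempty M₂]
    (hH₁ : ffa_HHyp PK₁ Pκ₁ Av res) (hH₂ : ffa_HHyp PK₂ Pκ₂ Av res)
    (B : Type) [CommRing B] [Algebra O B] [Nontrivial B]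
    (i₁ : ↥(ff_symAlg PK₁) →ₐ[O] B) (i₂ : ↥(ff_symAlg PK₂) →ₐ[O] B)
    (ξK : M₁ × M₂ → B →ₐ[O] Kb) (ξκ : M₁ × M₂ → B →ₐ[O] κ)
    (hi₁K : ∀ p, (ξK p).comp i₁ = ffa_ev PK₁ p.1) (hi₂K : ∀ p, (ξK p).comp i₂ = ffa_ev PK₂ p.2)
    (hi₁κ : ∀ p, (ξκ p).comp i₁ = ffa_ord_evκ hH₁ p.1)
    (hi₂κ : ∀ p, (ξκ p).comp i₂ = ffa_ord_evκ hH₂ p.2) :
    ∃ I₁ I₂ : Ideal (B ⊗[O] 𝒜),
      ffa_IsRelDiv O 𝒜 B I₁ g ∧ ffa_IsRelDiv O 𝒜 B I₂ g ∧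
      (∀ p, ffa_fibre (ξK p) I₁ = ff_ptIdeal Kb (PK₁ p.1)) ∧
      (∀ p, ffa_fibre (ξK p) I₂ = ff_ptIdeal Kb (PK₂ p.2)) ∧
      (∀ p, ffa_fibre (ξκ p) I₁ = ff_ptIdeal κ (Pκ₁ p.1)) ∧
      (∀ p, ffa_fibre (ξκ p) I₂ = ff_ptIdeal κ (Pκ₂ p.2)) := by
  -- the tautological divisors
  obtain ⟨IH₁, hIH₁, hIH₁K, hIH₁κ⟩ :=
    ffa_seamT O 𝒜 C π Kb κ Λ lead g n m0 c0 hP M₁ PK₁ Pκ₁ Av res hH₁ (ffa_ord_evκ hH₁)
      (fun z φ h => ffa_ord_evκ_apply hH₁ z φ h) (ffa_ord_nice1 hP.inj hH₁)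
  obtain ⟨IH₂, hIH₂, hIH₂K, hIH₂κ⟩ :=
    ffa_seamT O 𝒜 C π Kb κ Λ lead g n m0 c0 hP M₂ PK₂ Pκ₂ Av res hH₂ (ffa_ord_evκ hH₂)
      (fun z φ h => ffa_ord_evκ_apply hH₂ z φ h) (ffa_ord_nice1 hP.inj hH₂)
  let p₀ : M₁ × M₂ := (Classical.arbitrary M₁, Classical.arbitrary M₂)
  have hbc₁K := ffa_seamBC O 𝒜 ↥(ff_symAlg PK₁) B Kb
  have hbc₁κ := ffa_seamBC O 𝒜 ↥(ff_symAlg PK₁) B κ
  have hbc₂K := ffa_seamBC O 𝒜 ↥(ff_symAlg PK₂) B Kb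
  have hbc₂κ := ffa_seamBC O 𝒜 ↥(ff_symAlg PK₂) B κ
  refine ⟨ffa_fibre i₁ IH₁, ffa_fibre i₂ IH₂, (hbc₁K i₁ (ξK p₀) IH₁ g hIH₁).1,
    (hbc₂K i₂ (ξK p₀) IH₂ g hIH₂).1, ?_, ?_, ?_, ?_⟩
  · intro p
    rw [(hbc₁K i₁ (ξK p) IH₁ g hIH₁).2, hi₁K, hIH₁K]
  · intro p
    rw [(hbc₂K i₂ (ξK p) IH₂ g hIH₂).2, hi₂K, hIH₂K]
  · intro p
    rw [(hbc₁κ i₁ (ξκ p) IH₁ g hIH₁).2, hi₁κ, hIH₁κ]
  · intro p
    rw [(hbc₂κ i₂ (ξκ p) IH₂ g hIH₂).2, hi₂κ, hIH₂κ]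

/-- core of (co) over an abstract base -/
theorem mzg_add_co_core (hP : ff_IsPkg O 𝒜 C π Kb κ Λ lead g n m0 c0)
    [Nonempty M₁] [Nonempty M₂]
    (hH₁ : ffa_HHyp PK₁ Pκ₁ Av res) (hH₂ : ffa_HHyp PK₂ Pκ₂ Av res)
    (PK₃ : M₃ → Fin g → 𝒜 →ₐ[O] Kb) (Pκ₃ : M₃ → Fin g → 𝒜 →ₐ[O] κ) (P0 : Fin g → 𝒜 →ₐ[O] O)
    (μ : M₁ → M₂ → M₃)
    (hLK : ∀ x y, ff_LinEq O 𝒜 C Kb Λ lead (ff_ptIdeal Kb (PK₃ (μ x y)))
      (ff_ptIdeal Kb fun j => (Algebra.ofId O Kb).comp (P0 j))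
      (ff_ptIdeal Kb (PK₁ x)) (ff_ptIdeal Kb (PK₂ y)))
    (hUK : ∀ x y, ff_Uniq O 𝒜 C Kb Λ lead (ff_ptIdeal Kb (PK₃ (μ x y))))
    (hLκ : ∀ x y, ff_LinEq O 𝒜 C κ Λ lead (ff_ptIdeal κ (Pκ₃ (μ x y)))
      (ff_ptIdeal κ fun j => (Algebra.ofId O κ).comp (P0 j))
      (ff_ptIdeal κ (Pκ₁ x)) (ff_ptIdeal κ (Pκ₂ y)))
    (hUκ : ∀ x y, ff_Uniq O 𝒜 C κ Λ lead (ff_ptIdeal κ (Pκ₃ (μ x y))))
    (B : Type) [CommRing B] [Algebra O B] [Nontrivial B]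
    (i₁ : ↥(ff_symAlg PK₁) →ₐ[O] B) (i₂ : ↥(ff_symAlg PK₂) →ₐ[O] B)
    (ξK : M₁ × M₂ → B →ₐ[O] Kb) (ξκ : M₁ × M₂ → B →ₐ[O] κ)
    (hB : ffa_IsNice O Kb κ B (M₁ × M₂) ξK ξκ)
    (hi₁K : ∀ p, (ξK p).comp i₁ = ffa_ev PK₁ p.1) (hi₂K : ∀ p, (ξK p).comp i₂ = ffa_ev PK₂ p.2)
    (hi₁κ : ∀ p, (ξκ p).comp i₁ = ffa_ord_evκ hH₁ p.1)
    (hi₂κ : ∀ p, (ξκ p).comp i₂ = ffa_ord_evκ hH₂ p.2)
    (a : 𝒜) (i : ℕ) :
    ∃ b : B, ∀ x y,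
      ξK (x, y) b = ((Finset.univ : Finset (Fin g)).val.map fun j => PK₃ (μ x y) j a).esymm i := by
  obtain ⟨I₁, I₂, hI₁, hI₂, hI₁K, hI₂K, hI₁κ, hI₂κ⟩ :=
    mzg_add_setup hP hH₁ hH₂ B i₁ i₂ ξK ξκ hi₁K hi₂K hi₁κ hi₂κ
  -- the product of the two pull-backs
  have hI : ffa_IsRelDiv O 𝒜 B (I₁ * I₂) (2 * g) := by
    have h := ffa_seamMUL O 𝒜 C π Kb κ Λ lead g n m0 c0 hP B (M₁ × M₂) ξK ξκ hB I₁ I₂ g g hI₁ hI₂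
    rwa [← two_mul] at h
  have hIK : ∀ p, ffa_fibre (ξK p) (I₁ * I₂) =
      ff_ptIdeal Kb (PK₁ p.1) * ff_ptIdeal Kb (PK₂ p.2) := fun p => by
    rw [← hI₁K, ← hI₂K]
    exact Ideal.map_mul _ _ _
  have hIκ : ∀ p, ffa_fibre (ξκ p) (I₁ * I₂) =
      ff_ptIdeal κ (Pκ₁ p.1) * ff_ptIdeal κ (Pκ₂ p.2) := fun p => by
    rw [← hI₁κ, ← hI₂κ]
    exact Ideal.map_mul _ _ _
  -- the constant divisor
  have hI₀ := ffa_main_const_relDiv ffa_seamMUL hP B (M₁ × M₂) ξK ξκ hB P0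
  have hI₀K := fun p : M₁ × M₂ => ffa_main_const_fibre B Kb (ξK p) P0
  have hI₀κ := fun p : M₁ × M₂ => ffa_main_const_fibre B κ (ξκ p) P0
  obtain ⟨b, hb⟩ := mzg_add_core hP B (M₁ × M₂) ξK ξκ hB (I₁ * I₂) _ hI hI₀
    (fun p => PK₃ (μ p.1 p.2)) (fun p => Pκ₃ (μ p.1 p.2))
    (fun p => by
      obtain ⟨s, h, h', hu, hu', heq⟩ := hLK p.1 p.2
      refine ⟨s, h, h', hu, hu', ?_⟩
      rw [hI₀K, hIK, Ideal.mul_top, heq, mul_assoc])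
    (fun p => hUK _ _)
    (fun p => by
      obtain ⟨s, h, h', hu, hu', heq⟩ := hLκ p.1 p.2
      refine ⟨s, h, h', hu, hu', ?_⟩
      rw [hI₀κ, hIκ, Ideal.mul_top, heq, mul_assoc])
    (fun p => hUκ _ _) a i
  exact ⟨b, fun x y => hb (x, y)⟩

/-- core of (∇) over an abstract base -/
theorem mzg_add_nabla_core (hP : ff_IsPkg O 𝒜 C π Kb κ Λ lead g n m0 c0)
    [Nonempty M₁] [Nonempty M₂]
    (hH₁ : ffa_HHyp PK₁ Pκ₁ Av res) (hH₂ : ffa_HHyp PK₂ Pκ₂ Av res)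
    (PK₃ : M₃ → Fin g → 𝒜 →ₐ[O] Kb) (Pκ₃ : M₃ → Fin g → 𝒜 →ₐ[O] κ) (P0 : Fin g → 𝒜 →ₐ[O] O)
    (μ : M₁ → M₂ → M₃)
    (hLK : ∀ x y, ff_LinEq O 𝒜 C Kb Λ lead (ff_ptIdeal Kb (PK₃ (μ x y)))
      (ff_ptIdeal Kb (PK₁ x)) (ff_ptIdeal Kb (PK₂ y))
      (ff_ptIdeal Kb fun j => (Algebra.ofId O Kb).comp (P0 j)))
    (hUK : ∀ x y, ff_Uniq O 𝒜 C Kb Λ lead (ff_ptIdeal Kb (PK₃ (μ x y))))
    (hLκ : ∀ x y, ff_LinEq O 𝒜 C κ Λ lead (ff_ptIdeal κ (Pκ₃ (μ x y)))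
      (ff_ptIdeal κ (Pκ₁ x)) (ff_ptIdeal κ (Pκ₂ y))
      (ff_ptIdeal κ fun j => (Algebra.ofId O κ).comp (P0 j)))
    (hUκ : ∀ x y, ff_Uniq O 𝒜 C κ Λ lead (ff_ptIdeal κ (Pκ₃ (μ x y))))
    (B : Type) [CommRing B] [Algebra O B] [Nontrivial B]
    (i₁ : ↥(ff_symAlg PK₁) →ₐ[O] B) (i₂ : ↥(ff_symAlg PK₂) →ₐ[O] B)
    (ξK : M₁ × M₂ → B →ₐ[O] Kb) (ξκ : M₁ × M₂ → B →ₐ[O] κ)
    (hB : ffa_IsNice O Kb κ B (M₁ × M₂) ξK ξκ)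
    (hi₁K : ∀ p, (ξK p).comp i₁ = ffa_ev PK₁ p.1) (hi₂K : ∀ p, (ξK p).comp i₂ = ffa_ev PK₂ p.2)
    (hi₁κ : ∀ p, (ξκ p).comp i₁ = ffa_ord_evκ hH₁ p.1)
    (hi₂κ : ∀ p, (ξκ p).comp i₂ = ffa_ord_evκ hH₂ p.2)
    (a : 𝒜) (i : ℕ) :
    ∃ b : B, ∀ x y,
      ξK (x, y) b = ((Finset.univ : Finset (Fin g)).val.map fun j => PK₃ (μ x y) j a).esymm i := by
  obtain ⟨I₁, I₂, hI₁, hI₂, hI₁K, hI₂K, hI₁κ, hI₂κ⟩ :=
    mzg_add_setup hP hH₁ hH₂ B i₁ i₂ ξK ξκ hi₁K hi₂K hi₁κ hi₂κ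
  -- the constant divisor
  have hI₀ := ffa_main_const_relDiv ffa_seamMUL hP B (M₁ × M₂) ξK ξκ hB P0
  have hI₀K := fun p : M₁ × M₂ => ffa_main_const_fibre B Kb (ξK p) P0
  have hI₀κ := fun p : M₁ × M₂ => ffa_main_const_fibre B κ (ξκ p) P0
  -- the product `D₂(y) + E₀`
  have hI : ffa_IsRelDiv O 𝒜 B (I₂ * ∏ j, RingHom.ker (ffa_main_sec B (P0 j))) (2 * g) := by
    have h := ffa_seamMUL O 𝒜 C π Kb κ Λ lead g n m0 c0 hP B (M₁ × M₂) ξK ξκ hB I₂ _ g g hI₂ hI₀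
    rwa [← two_mul] at h
  have hIK : ∀ p, ffa_fibre (ξK p) (I₂ * ∏ j, RingHom.ker (ffa_main_sec B (P0 j))) =
      ff_ptIdeal Kb (PK₂ p.2) * ff_ptIdeal Kb fun j => (Algebra.ofId O Kb).comp (P0 j) :=
    fun p => by
      rw [← hI₂K, ← hI₀K]
      exact Ideal.map_mul _ _ _
  have hIκ : ∀ p, ffa_fibre (ξκ p) (I₂ * ∏ j, RingHom.ker (ffa_main_sec B (P0 j))) =
      ff_ptIdeal κ (Pκ₂ p.2) * ff_ptIdeal κ fun j => (Algebra.ofId O κ).comp (P0 j) :=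
    fun p => by
      rw [← hI₂κ, ← hI₀κ]
      exact Ideal.map_mul _ _ _
  obtain ⟨b, hb⟩ := mzg_add_core hP B (M₁ × M₂) ξK ξκ hB _ I₁ hI hI₁
    (fun p => PK₃ (μ p.1 p.2)) (fun p => Pκ₃ (μ p.1 p.2))
    (fun p => by
      obtain ⟨s, h, h', hu, hu', heq⟩ := hLK p.1 p.2
      refine ⟨s, h, h', hu, hu', ?_⟩
      rw [hI₁K, hIK, Ideal.mul_top, heq, mul_assoc])
    (fun p => hUK _ _)
    (fun p => by
      obtain ⟨s, h, h', hu, hu', heq⟩ := hLκ p.1 p.2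
      refine ⟨s, h, h', hu, hu', ?_⟩
      rw [hI₁κ, hIκ, Ideal.mul_top, heq, mul_assoc])
    (fun p => hUκ _ _) a i
  exact ⟨b, fun x y => hb (x, y)⟩

/-- **(co) / `Δ`**: `D₃(μ x y) + E₀ ∼ D₁(x) + D₂(y)`. -/
theorem mzg_add_co (hP : ff_IsPkg O 𝒜 C π Kb κ Λ lead g n m0 c0)
    (hH₁ : ffa_HHyp PK₁ Pκ₁ Av res) (hH₂ : ffa_HHyp PK₂ Pκ₂ Av res)
    (PK₃ : M₃ → Fin g → 𝒜 →ₐ[O] Kb) (Pκ₃ : M₃ → Fin g → 𝒜 →ₐ[O] κ) (P0 : Fin g → 𝒜 →ₐ[O] O)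
    (μ : M₁ → M₂ → M₃)
    (hLK : ∀ x y, ff_LinEq O 𝒜 C Kb Λ lead (ff_ptIdeal Kb (PK₃ (μ x y)))
      (ff_ptIdeal Kb fun j => (Algebra.ofId O Kb).comp (P0 j))
      (ff_ptIdeal Kb (PK₁ x)) (ff_ptIdeal Kb (PK₂ y)))
    (hUK : ∀ x y, ff_Uniq O 𝒜 C Kb Λ lead (ff_ptIdeal Kb (PK₃ (μ x y))))
    (hLκ : ∀ x y, ff_LinEq O 𝒜 C κ Λ lead (ff_ptIdeal κ (Pκ₃ (μ x y)))
      (ff_ptIdeal κ fun j => (Algebra.ofId O κ).comp (P0 j))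
      (ff_ptIdeal κ (Pκ₁ x)) (ff_ptIdeal κ (Pκ₂ y)))
    (hUκ : ∀ x y, ff_Uniq O 𝒜 C κ Λ lead (ff_ptIdeal κ (Pκ₃ (μ x y))))
    (a : 𝒜) (i : ℕ) :
    ∃ (r : ℕ) (α : Fin r → M₁ → Kb) (β : Fin r → M₂ → Kb),
      (∀ j, α j ∈ ff_symAlg PK₁) ∧ (∀ j, β j ∈ ff_symAlg PK₂) ∧
      ∀ x y, ff_symFun PK₃ a i (μ x y) = ∑ j, α j x * β j y := by
  rcases isEmpty_or_nonempty M₁ with h₁ | h₁
  · exact ⟨0, fun j => j.elim0, fun j => j.elim0, fun j => j.elim0, fun j => j.elim0,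
      fun x => (h₁.false x).elim⟩
  rcases isEmpty_or_nonempty M₂ with h₂ | h₂
  · exact ⟨0, fun j => j.elim0, fun j => j.elim0, fun j => j.elim0, fun j => j.elim0,
      fun x y => (h₂.false y).elim⟩
  have hnice := mzg_nice2 hP.res_surj hP.inj hH₁ hH₂
  have hBnt : Nontrivial (↥(ff_symAlg PK₁) ⊗[O] ↥(ff_symAlg PK₂)) :=
    RingHom.domain_nontrivial
      (mzg_ev2 PK₁ PK₂ (Classical.arbitrary M₁, Classical.arbitrary M₂)).toRingHom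
  have core := mzg_add_co_core hP hH₁ hH₂ PK₃ Pκ₃ P0 μ hLK hUK hLκ hUκ
    (↥(ff_symAlg PK₁) ⊗[O] ↥(ff_symAlg PK₂))
  have core2 := core Algebra.TensorProduct.includeLeft Algebra.TensorProduct.includeRight
  have core3 := core2 (mzg_ev2 PK₁ PK₂) (mzg_evκ2 hH₁ hH₂) hnice
  have core5 := core3
    (fun p => Algebra.TensorProduct.lift_comp_includeLeft _ _ (fun _ _ => Commute.all _ _))
  have core6 := core5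
    (fun p => Algebra.TensorProduct.lift_comp_includeRight' _ _ (fun _ _ => Commute.all _ _))
  have core7 := core6
    (fun p => Algebra.TensorProduct.lift_comp_includeLeft _ _ (fun _ _ => Commute.all _ _))
  have core8 := core7
    (fun p => Algebra.TensorProduct.lift_comp_includeRight' _ _ (fun _ _ => Commute.all _ _))
  obtain ⟨b, hb⟩ := core8 a i
  obtain ⟨r, α, β, hα, hβ, hab⟩ := mzg_decomp PK₁ PK₂ b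
  refine ⟨r, α, β, hα, hβ, fun x y => ?_⟩
  rw [← hab x y, hb x y]
  rfl

/-- **(∇)**: `D₃(μ x y) + D₁(x) ∼ D₂(y) + E₀`. -/
theorem mzg_add_nabla (hP : ff_IsPkg O 𝒜 C π Kb κ Λ lead g n m0 c0)
    (hH₁ : ffa_HHyp PK₁ Pκ₁ Av res) (hH₂ : ffa_HHyp PK₂ Pκ₂ Av res)
    (PK₃ : M₃ → Fin g → 𝒜 →ₐ[O] Kb) (Pκ₃ : M₃ → Fin g → 𝒜 →ₐ[O] κ) (P0 : Fin g → 𝒜 →ₐ[O] O)
    (μ : M₁ → M₂ → M₃)
    (hLK : ∀ x y, ff_LinEq O 𝒜 C Kb Λ lead (ff_ptIdeal Kb (PK₃ (μ x y)))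
      (ff_ptIdeal Kb (PK₁ x)) (ff_ptIdeal Kb (PK₂ y))
      (ff_ptIdeal Kb fun j => (Algebra.ofId O Kb).comp (P0 j)))
    (hUK : ∀ x y, ff_Uniq O 𝒜 C Kb Λ lead (ff_ptIdeal Kb (PK₃ (μ x y))))
    (hLκ : ∀ x y, ff_LinEq O 𝒜 C κ Λ lead (ff_ptIdeal κ (Pκ₃ (μ x y)))
      (ff_ptIdeal κ (Pκ₁ x)) (ff_ptIdeal κ (Pκ₂ y))
      (ff_ptIdeal κ fun j => (Algebra.ofId O κ).comp (P0 j)))
    (hUκ : ∀ x y, ff_Uniq O 𝒜 C κ Λ lead (ff_ptIdeal κ (Pκ₃ (μ x y))))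
    (a : 𝒜) (i : ℕ) :
    ∃ (r : ℕ) (α : Fin r → M₁ → Kb) (β : Fin r → M₂ → Kb),
      (∀ j, α j ∈ ff_symAlg PK₁) ∧ (∀ j, β j ∈ ff_symAlg PK₂) ∧
      ∀ x y, ff_symFun PK₃ a i (μ x y) = ∑ j, α j x * β j y := by
  rcases isEmpty_or_nonempty M₁ with h₁ | h₁
  · exact ⟨0, fun j => j.elim0, fun j => j.elim0, fun j => j.elim0, fun j => j.elim0,
      fun x => (h₁.false x).elim⟩
  rcases isEmpty_or_nonempty M₂ with h₂ | h₂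
  · exact ⟨0, fun j => j.elim0, fun j => j.elim0, fun j => j.elim0, fun j => j.elim0,
      fun x y => (h₂.false y).elim⟩
  have hnice := mzg_nice2 hP.res_surj hP.inj hH₁ hH₂
  have hBnt : Nontrivial (↥(ff_symAlg PK₁) ⊗[O] ↥(ff_symAlg PK₂)) :=
    RingHom.domain_nontrivial
      (mzg_ev2 PK₁ PK₂ (Classical.arbitrary M₁, Classical.arbitrary M₂)).toRingHom
  have core := mzg_add_nabla_core hP hH₁ hH₂ PK₃ Pκ₃ P0 μ hLK hUK hLκ hUκ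
    (↥(ff_symAlg PK₁) ⊗[O] ↥(ff_symAlg PK₂))
  have core2 := core Algebra.TensorProduct.includeLeft Algebra.TensorProduct.includeRight
  have core3 := core2 (mzg_ev2 PK₁ PK₂) (mzg_evκ2 hH₁ hH₂) hnice
  have core5 := core3
    (fun p => Algebra.TensorProduct.lift_comp_includeLeft _ _ (fun _ _ => Commute.all _ _))
  have core6 := core5
    (fun p => Algebra.TensorProduct.lift_comp_includeRight' _ _ (fun _ _ => Commute.all _ _))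
  have core7 := core6
    (fun p => Algebra.TensorProduct.lift_comp_includeLeft _ _ (fun _ _ => Commute.all _ _))
  have core8 := core7
    (fun p => Algebra.TensorProduct.lift_comp_includeRight' _ _ (fun _ _ => Commute.all _ _))
  obtain ⟨b, hb⟩ := core8 a i
  obtain ⟨r, α, β, hα, hβ, hab⟩ := mzg_decomp PK₁ PK₂ b
  refine ⟨r, α, β, hα, hβ, fun x y => ?_⟩
  rw [← hab x y, hb x y]
  rfl

end Main

end Fermat.Agent.MZ
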