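/-
Project MAZUR (S15), cell [GEO] (torsor version of FF), leaf (G-ADD), part 3 (helper5).
Prefix `mzg_dc_` (+ `mzg_add_*_all`).

* `mzg_dc_In S₁ S₂ μ φ` : the function `(x, y) ↦ φ (μ x y)` on `M₁ × M₂` is a finite sum
  `∑ α_j(x) β_j(y)` with `α_j ∈ S₁`, `β_j ∈ S₂` (two-family version of `ff_ComulIn` of
  `FF/AssemblyGeom.lean`); closed under `+`, `*`, constants;
* `mzg_add_co_all`, `mzg_add_nabla_all` : under the hypotheses of `mzg_add_co` / `mzg_add_nabla`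
  EVERY `φ ∈ ff_symAlg PK₃` (not only the generators `e_i(a)`) satisfies
  `mzg_dc_In (ff_symAlg PK₁) (ff_symAlg PK₂) μ φ`.
-/
import Mathlib
import Fermat.Agent.MZ.Geo.Add2

set_option autoImplicit false
set_option linter.unusedSectionVars false

noncomputable section

namespace Fermat.Agent.MZ

open Fermat.Agent.FF
open scoped TensorProduct

/-! ### the predicate -/

section Pred

variable {M₁ M₂ M₃ : Type} {K : Type} [Field K]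

/-- `(x, y) ↦ φ (μ x y)` lies in `S₁ ⊗ S₂` -/
def mzg_dc_In (S₁ : Set (M₁ → K)) (S₂ : Set (M₂ → K)) (μ : M₁ → M₂ → M₃) (φ : M₃ → K) : Prop :=
  ∃ (r : ℕ) (α : Fin r → M₁ → K) (β : Fin r → M₂ → K), (∀ j, α j ∈ S₁) ∧ (∀ j, β j ∈ S₂) ∧
    ∀ x y, φ (μ x y) = ∑ j, α j x * β j y

variable {S₁ : Set (M₁ → K)} {S₂ : Set (M₂ → K)} {μ : M₁ → M₂ → M₃}

theorem mzg_dc_add {φ ψ : M₃ → K} (hφ : mzg_dc_In S₁ S₂ μ φ) (hψ : mzg_dc_In S₁ S₂ μ ψ) :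
    mzg_dc_In S₁ S₂ μ (φ + ψ) := by
  obtain ⟨r, α, β, hα, hβ, h⟩ := hφ
  obtain ⟨r', α', β', hα', hβ', h'⟩ := hψ
  refine ⟨r + r', Fin.append α α', Fin.append β β', ?_, ?_, fun x y => ?_⟩
  · intro j
    refine Fin.addCases (fun i => ?_) (fun i => ?_) j
    · rw [Fin.append_left]; exact hα i
    · rw [Fin.append_right]; exact hα' i
  · intro j
    refine Fin.addCases (fun i => ?_) (fun i => ?_) j
    · rw [Fin.append_left]; exact hβ i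
    · rw [Fin.append_right]; exact hβ' i
  · rw [Fin.sum_univ_add]
    simp only [Fin.append_left, Fin.append_right, Pi.add_apply]
    rw [h, h']

theorem mzg_dc_mul (hS₁ : ∀ a b, a ∈ S₁ → b ∈ S₁ → a * b ∈ S₁)
    (hS₂ : ∀ a b, a ∈ S₂ → b ∈ S₂ → a * b ∈ S₂) {φ ψ : M₃ → K}
    (hφ : mzg_dc_In S₁ S₂ μ φ) (hψ : mzg_dc_In S₁ S₂ μ ψ) : mzg_dc_In S₁ S₂ μ (φ * ψ) := by
  obtain ⟨r, α, β, hα, hβ, h⟩ := hφ
  obtain ⟨r', α', β', hα', hβ', h'⟩ := hψ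
  refine ⟨r * r', fun t => α (finProdFinEquiv.symm t).1 * α' (finProdFinEquiv.symm t).2,
    fun t => β (finProdFinEquiv.symm t).1 * β' (finProdFinEquiv.symm t).2,
    fun t => hS₁ _ _ (hα _) (hα' _), fun t => hS₂ _ _ (hβ _) (hβ' _), fun x y => ?_⟩
  rw [Pi.mul_apply, h, h', Finset.sum_mul_sum]
  rw [← Finset.sum_product', Finset.univ_product_univ]
  rw [← Equiv.sum_comp finProdFinEquiv.symm]
  refine Finset.sum_congr rfl fun t _ => ?_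
  simp only [Pi.mul_apply]
  ring

theorem mzg_dc_const (c : K) (hc : (fun _ : M₁ => c) ∈ S₁) (h1 : (fun _ : M₂ => (1 : K)) ∈ S₂) :
    mzg_dc_In S₁ S₂ μ (fun _ : M₃ => c) :=
  ⟨1, fun _ => fun _ => c, fun _ => fun _ => 1, fun _ => hc, fun _ => h1, fun x y => by simp⟩

/-- the predicate passes from generators to the generated subalgebra -/
theorem mzg_dc_adjoin {O : Type} [CommSemiring O] [Algebra O K]
    (H₁ : Subalgebra O (M₁ → K)) (H₂ : Subalgebra O (M₂ → K)) (gens : Set (M₃ → K))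
    (hgens : ∀ φ ∈ gens, mzg_dc_In (H₁ : Set (M₁ → K)) (H₂ : Set (M₂ → K)) μ φ) :
    ∀ φ ∈ Algebra.adjoin O gens, mzg_dc_In (H₁ : Set (M₁ → K)) (H₂ : Set (M₂ → K)) μ φ := by
  intro φ hφ
  induction hφ using Algebra.adjoin_induction with
  | mem φ hφ => exact hgens φ hφ
  | algebraMap o =>
    exact mzg_dc_const _ (H₁.algebraMap_mem o) (by
      have := H₂.one_mem
      exact this)
  | add φ ψ _ _ h1 h2 => exact mzg_dc_add h1 h2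
  | mul φ ψ _ _ h1 h2 =>
    exact mzg_dc_mul (fun a b ha hb => H₁.mul_mem ha hb) (fun a b ha hb => H₂.mul_mem ha hb) h1 h2

end Pred

/-! ### the two theorems for all of `H₃` -/

section All

variable {O : Type} [CommRing O] [IsDomain O] [IsDiscreteValuationRing O]
  {𝒜 : Type} [CommRing 𝒜] [Algebra O 𝒜] {C : Type} [CommRing C] [Algebra O C] {π : O}
  {Kb : Type} [Field Kb] [IsAlgClosed Kb] [Algebra O Kb]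
  {κ : Type} [Field κ] [IsAlgClosed κ] [Algebra O κ]
  {Λ : ℕ → Submodule O 𝒜} {lead : ∀ m, ↥(Λ m) →ₗ[O] C} {g n m0 c0 : ℕ}
  {M₁ M₂ M₃ : Type} [Finite M₁] [Finite M₂]
  {PK₁ : M₁ → Fin g → 𝒜 →ₐ[O] Kb} {Pκ₁ : M₁ → Fin g → 𝒜 →ₐ[O] κ}
  {PK₂ : M₂ → Fin g → 𝒜 →ₐ[O] Kb} {Pκ₂ : M₂ → Fin g → 𝒜 →ₐ[O] κ}
  {Av : Subring Kb} {res : ↥Av →+* κ}

/-- **(co) / `Δ`** for all of `H₃`. -/
theorem mzg_add_co_all (hP : ff_IsPkg O 𝒜 C π Kb κ Λ lead g n m0 c0)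
    (hH₁ : ffa_HHyp PK₁ Pκ₁ Av res) (hH₂ : ffa_HHyp PK₂ Pκ₂ Av res)
    (PK₃ : M₃ → Fin g → 𝒜 →ₐ[O] Kb) (Pκ₃ : M₃ → Fin g → 𝒜 →ₐ[O] κ) (P0 : Fin g → 𝒜 →ₐ[O] O)
    (μ : M₁ → M₂ → M₃)
    (hLK : ∀ x y, ff_LinEq O 𝒜 C Kb Λ lead (ff_ptIdeal Kb (PK₃ (μ x y)))
      (ff_ptIdeal Kb fun j => (Algebra.ofId O Kb).comp (P0 j))
      (ff_ptIdeal Kb (PK₁ x)) (ff_ptIdeal Kb (PK₂ y)))
    (hUK : ∀ x y, ff_Uniq O 𝒜 C Kb Λ lead (ff_ptIdeal Kb (PK₃ (μ x y))))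
    (hLκ : ∀ x y, ff_LinEq O 𝒜 C κ Λ lead (ff_ptIdeal κ (Pκ₃ (μ x y)))
      (ff_ptIdeal κ fun j => (Algebra.ofId O κ).comp (P0 j))
      (ff_ptIdeal κ (Pκ₁ x)) (ff_ptIdeal κ (Pκ₂ y)))
    (hUκ : ∀ x y, ff_Uniq O 𝒜 C κ Λ lead (ff_ptIdeal κ (Pκ₃ (μ x y)))) :
    ∀ φ ∈ ff_symAlg PK₃, mzg_dc_In (ff_symAlg PK₁ : Set (M₁ → Kb)) (ff_symAlg PK₂ : Set (M₂ → Kb))
      μ φ := by
  refine mzg_dc_adjoin (ff_symAlg PK₁) (ff_symAlg PK₂) _ ?_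
  rintro _ ⟨a, i, rfl⟩
  exact mzg_add_co hP hH₁ hH₂ PK₃ Pκ₃ P0 μ hLK hUK hLκ hUκ a i

/-- **(∇)** for all of `H₃`. -/
theorem mzg_add_nabla_all (hP : ff_IsPkg O 𝒜 C π Kb κ Λ lead g n m0 c0)
    (hH₁ : ffa_HHyp PK₁ Pκ₁ Av res) (hH₂ : ffa_HHyp PK₂ Pκ₂ Av res)
    (PK₃ : M₃ → Fin g → 𝒜 →ₐ[O] Kb) (Pκ₃ : M₃ → Fin g → 𝒜 →ₐ[O] κ) (P0 : Fin g → 𝒜 →ₐ[O] O)
    (μ : M₁ → M₂ → M₃)
    (hLK : ∀ x y, ff_LinEq O 𝒜 C Kb Λ lead (ff_ptIdeal Kb (PK₃ (μ x y)))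
      (ff_ptIdeal Kb (PK₁ x)) (ff_ptIdeal Kb (PK₂ y))
      (ff_ptIdeal Kb fun j => (Algebra.ofId O Kb).comp (P0 j)))
    (hUK : ∀ x y, ff_Uniq O 𝒜 C Kb Λ lead (ff_ptIdeal Kb (PK₃ (μ x y))))
    (hLκ : ∀ x y, ff_LinEq O 𝒜 C κ Λ lead (ff_ptIdeal κ (Pκ₃ (μ x y)))
      (ff_ptIdeal κ (Pκ₁ x)) (ff_ptIdeal κ (Pκ₂ y))
      (ff_ptIdeal κ fun j => (Algebra.ofId O κ).comp (P0 j)))
    (hUκ : ∀ x y, ff_Uniq O 𝒜 C κ Λ lead (ff_ptIdeal κ (Pκ₃ (μ x y)))) :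
    ∀ φ ∈ ff_symAlg PK₃, mzg_dc_In (ff_symAlg PK₁ : Set (M₁ → Kb)) (ff_symAlg PK₂ : Set (M₂ → Kb))
      μ φ := by
  refine mzg_dc_adjoin (ff_symAlg PK₁) (ff_symAlg PK₂) _ ?_
  rintro _ ⟨a, i, rfl⟩
  exact mzg_add_nabla hP hH₁ hH₂ PK₃ Pκ₃ P0 μ hLK hUK hLκ hUκ a i

end All

end Fermat.Agent.MZ
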