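/-
MAZUR project (S15), node [GEO], cell (G-GAL) (helper26; cell owner helper27).  Prefix `mzg_q_`.

ABSTRACT GALOIS THEORY OF EQUIVARIANT FUNCTION ALGEBRAS ON A FINITE *SET* (the `G`-set version of
`ff_SeamGAL` = `FF/Gal.lean`, which is stated for finite Galois MODULES).  It is consumed for the
torsor `X_P = [ℓ^k]⁻¹(P)` and for `J[ℓ^k] ⊔ X_P`, on which only a subgroup of `G_ℚ` acts.

Setting: `A` a valuation subring of `Q̄`, `L₁ ⊆ Q̄` a subfield, `O → Q̄` a discrete valuation ring with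
image `A ∩ L₁`; `Γ` ANY SET of automorphisms of `Q̄` whose fixed field is `L₁`
(`hΓ : y ∈ L₁ ↔ ∀ σ ∈ Γ, σ y = y`; e.g. `Γ = L₁.fixingSubgroup`, or `Γ =` the inertia group of `A`
and `L₁ =` the inertia field); `M` a finite type with a RELATION `R σ x x'` ("`x' = σ x`") which is
total and onto for every `σ ∈ Γ` (no `MulAction` instance is needed; `mzg_q_main_act` is the
corollary for `[MulAction ↥Γ M]`); `H` an `O`-algebra of `A`-valued functions `M → Q̄` which are
equivariant: `R σ x x' → φ x' = σ (φ x)`.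

* `mzg_q_main`     : (1) `H` is a finite `O`-module, (2) `O`-independent families in `H` are
                     `Q̄`-independent, (3) every maximal ideal of `H` is `{φ | φ z ∈ 𝔪_A}` for some
                     `z ∈ M`  [verbatim the conclusion of `ff_SeamGAL`];
* `mzg_q_main_act` : the same for a subgroup `Γ` acting on `M`;
* `mzg_q_span_top` : a point-separating `H` spans `Map(M, Q̄)` over `Q̄` (Lagrange products);
* `mzg_q_free_finrank` : then `H` is `O`-free of rank `card M` (if `O → Q̄` is injective).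
-/
import Mathlib
import Fermat.Agent.FF.Gal

set_option autoImplicit false
set_option linter.style.haveILetI false
set_option linter.unusedSectionVars false

noncomputable section

open Polynomial

namespace Fermat.Agent.MZ

open Fermat.Agent.FF

/-! ### Galois descent for equivariant functions on a set -/

section Descent

variable {M : Type} (Γ : Set ff_GQ) (R : ff_GQ → M → M → Prop)

/-- `φ : M → Q̄` is `Γ`-equivariant with respect to the relation `R σ x x'` ("`x' = σ x`") -/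
def mzg_q_Eq (φ : M → ff_Qb) : Prop :=
  ∀ σ ∈ Γ, ∀ x x' : M, R σ x x' → φ x' = σ (φ x)

variable {Γ R}

/-- applying `σ` to the coefficients of a relation between equivariant functions -/
theorem mzg_q_sum_conj {ι : Type} [Fintype ι] (e : ι → M → ff_Qb)
    (heq : ∀ i, mzg_q_Eq Γ R (e i)) (c : ι → ff_Qb) {σ : ff_GQ} (hσ : σ ∈ Γ) {x x' : M}
    (hx : R σ x x') : ∑ i, σ (c i) * e i x' = σ (∑ i, c i * e i x) := by
  rw [map_sum]
  refine Finset.sum_congr rfl fun i _ => ?_
  rw [map_mul, heq i σ hσ x x' hx]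

/-- **(D1)** the coefficients of an equivariant function with respect to a `Q̄`-independent
equivariant family lie in the fixed field of `Γ`. -/
theorem mzg_q_coeff_mem (L₁ : IntermediateField ℚ ff_Qb)
    (hfix : ∀ y : ff_Qb, (∀ σ ∈ Γ, σ y = y) → y ∈ L₁)
    (hsur : ∀ σ ∈ Γ, ∀ x' : M, ∃ x, R σ x x')
    {ι : Type} [Fintype ι] (e : ι → M → ff_Qb) (heq : ∀ i, mzg_q_Eq Γ R (e i))
    (hind : ∀ c : ι → ff_Qb, (∀ x, ∑ i, c i * e i x = 0) → c = 0)
    (φ : M → ff_Qb) (hφ : mzg_q_Eq Γ R φ) (c : ι → ff_Qb) (hc : ∀ x, φ x = ∑ i, c i * e i x)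
    (i : ι) : c i ∈ L₁ := by
  apply hfix
  intro σ hσ
  have h0 := hind (fun j => σ (c j) - c j) (by
    intro x'
    obtain ⟨x, hx⟩ := hsur σ hσ x'
    have h1 : ∑ j, (σ (c j) - c j) * e j x' = ∑ j, σ (c j) * e j x' - ∑ j, c j * e j x' := by
      rw [← Finset.sum_sub_distrib]
      exact Finset.sum_congr rfl fun j _ => by ring
    rw [h1, mzg_q_sum_conj e heq c hσ hx, ← hc, ← hc, hφ σ hσ x x' hx, sub_self])
  exact sub_eq_zero.1 (congrFun h0 i)

/-- **(D2)** (Artin) `L₁`-linearly independent equivariant functions are `Q̄`-linearly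
independent. -/
theorem mzg_q_indep_descent (L₁ : IntermediateField ℚ ff_Qb)
    (hfix : ∀ y : ff_Qb, (∀ σ ∈ Γ, σ y = y) → y ∈ L₁)
    (hsur : ∀ σ ∈ Γ, ∀ x' : M, ∃ x, R σ x x')
    {ι : Type} [Fintype ι] (e : ι → M → ff_Qb) (heq : ∀ i, mzg_q_Eq Γ R (e i))
    (hL : ∀ c : ι → ff_Qb, (∀ i, c i ∈ L₁) → (∀ x, ∑ i, c i * e i x = 0) → c = 0) :
    ∀ c : ι → ff_Qb, (∀ x, ∑ i, c i * e i x = 0) → c = 0 := by
  classical
  have key : ∀ n : ℕ, ∀ c : ι → ff_Qb, (Finset.univ.filter fun i => c i ≠ 0).card = n →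
      (∀ x, ∑ i, c i * e i x = 0) → c = 0 := by
    intro n
    induction n using Nat.strong_induction_on with
    | _ n ih =>
      intro c hcard hrel
      by_contra hc
      obtain ⟨i₀, hi₀⟩ : ∃ i₀, c i₀ ≠ 0 := by
        by_contra hcon
        push Not at hcon
        exact hc (funext hcon)
      set c' : ι → ff_Qb := fun i => (c i₀)⁻¹ * c i with hc'
      have hc'i₀ : c' i₀ = 1 := inv_mul_cancel₀ hi₀
      have hrel' : ∀ x, ∑ i, c' i * e i x = 0 := by
        intro x
        have : ∑ i, c' i * e i x = (c i₀)⁻¹ * ∑ i, c i * e i x := by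
          rw [Finset.mul_sum]
          refine Finset.sum_congr rfl fun i _ => ?_
          simp only [hc']
          ring
        rw [this, hrel x, mul_zero]
      have hsupp' : (Finset.univ.filter fun i => c' i ≠ 0) =
          Finset.univ.filter fun i => c i ≠ 0 := by
        ext i
        simp only [Finset.mem_filter, Finset.mem_univ, true_and, hc']
        constructor
        · intro h h0
          exact h (by rw [h0, mul_zero])
        · intro h
          exact mul_ne_zero (inv_ne_zero hi₀) h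
      have hinv : ∀ σ ∈ Γ, ∀ i, σ (c' i) = c' i := by
        intro σ hσ
        set d : ι → ff_Qb := fun i => σ (c' i) - c' i with hd
        have hdrel : ∀ x, ∑ i, d i * e i x = 0 := by
          intro x'
          obtain ⟨x, hx⟩ := hsur σ hσ x'
          have h2 : ∑ i, d i * e i x' = ∑ i, σ (c' i) * e i x' - ∑ i, c' i * e i x' := by
            rw [← Finset.sum_sub_distrib]
            refine Finset.sum_congr rfl fun i _ => ?_
            simp only [hd]
            ring
          rw [h2, mzg_q_sum_conj e heq c' hσ hx, hrel' x, hrel' x', map_zero, sub_zero]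
        have hdsub : (Finset.univ.filter fun i => d i ≠ 0) ⊂
            Finset.univ.filter fun i => c' i ≠ 0 := by
          rw [Finset.ssubset_iff_of_subset]
          · refine ⟨i₀, ?_, ?_⟩
            · simp only [Finset.mem_filter, Finset.mem_univ, true_and]
              rw [hc'i₀]
              exact one_ne_zero
            · simp only [Finset.mem_filter, Finset.mem_univ, true_and, not_not, hd]
              rw [hc'i₀, map_one, sub_self]
          · intro i
            simp only [Finset.mem_filter, Finset.mem_univ, true_and, hd]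
            intro h h0
            apply h
            rw [h0, map_zero, sub_zero]
        have hlt : (Finset.univ.filter fun i => d i ≠ 0).card < n := by
          rw [← hcard, ← hsupp']
          exact Finset.card_lt_card hdsub
        have hd0 := ih _ hlt d rfl hdrel
        intro i
        have := congrFun hd0 i
        simp only [hd, Pi.zero_apply] at this
        exact sub_eq_zero.1 this
      have hmem : ∀ i, c' i ∈ L₁ := fun i => hfix _ (fun σ hσ => hinv σ hσ i)
      have h0 := hL c' hmem hrel'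
      have : c' i₀ = 0 := congrFun h0 i₀
      rw [hc'i₀] at this
      exact one_ne_zero this
  intro c hrel
  exact key _ c rfl hrel

end Descent

/-! ### the three clauses -/

section Seam

variable (A : ValuationSubring ff_Qb) (L₁ : IntermediateField ℚ ff_Qb)
  (O : Type) [CommRing O] [IsDomain O] [IsDiscreteValuationRing O] [Algebra O ff_Qb]
  (hO : Set.range (algebraMap O ff_Qb) = (A : Set ff_Qb) ∩ (L₁ : Set ff_Qb))
  (Γ : Set ff_GQ) (hΓ : ∀ y : ff_Qb, y ∈ L₁ ↔ ∀ σ ∈ Γ, σ y = y)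
  (M : Type) [Finite M] (R : ff_GQ → M → M → Prop)
  (htot : ∀ σ ∈ Γ, ∀ x : M, ∃ x', R σ x x')
  (hsur : ∀ σ ∈ Γ, ∀ x' : M, ∃ x, R σ x x')
  (H : Subalgebra O (M → ff_Qb))
  (hHA : ∀ φ ∈ H, ∀ x : M, φ x ∈ A)
  (hHeq : ∀ φ ∈ H, mzg_q_Eq Γ R φ)

include hO hΓ hsur hHeq in
/-- clause (2): `O`-independent families in `H` are `Q̄`-independent -/
theorem mzg_q_indep (ι : Type) [Fintype ι] (φ : ι → M → ff_Qb) (hφ : ∀ j, φ j ∈ H)
    (hli : LinearIndependent O φ) : LinearIndependent ff_Qb φ := by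
  classical
  rw [Fintype.linearIndependent_iff]
  intro g hg
  have hrel : ∀ x, ∑ i, g i * φ i x = 0 := by
    intro x
    have := congrFun hg x
    simpa [Finset.sum_apply, smul_eq_mul] using this
  have h0 := mzg_q_indep_descent L₁ (fun y hy => (hΓ y).2 hy) hsur φ
    (fun i => hHeq _ (hφ i)) (by
    intro c hc hcrel
    obtain ⟨d, hdA, hdL, hd0, hd⟩ := ffq_common_denom A L₁ Finset.univ c (fun i _ => hc i)
    have hex : ∀ i, ∃ o : O, algebraMap O ff_Qb o = d * c i := fun i =>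
      ffq_exists_of_mem A L₁ O hO (hd i (Finset.mem_univ i)) (L₁.mul_mem hdL (hc i))
    choose o ho using hex
    have hsum : ∑ i, o i • φ i = 0 := by
      funext x
      rw [Finset.sum_apply, Pi.zero_apply]
      have : ∀ i, (o i • φ i) x = d * (c i * φ i x) := by
        intro i
        rw [Pi.smul_apply, Algebra.smul_def, ho, mul_assoc]
      simp only [this]
      rw [← Finset.mul_sum, hcrel x, mul_zero]
    have ho0 := Fintype.linearIndependent_iff.1 hli o hsum
    funext i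
    have h1 : d * c i = 0 := by rw [← ho i, ho0 i, map_zero]
    exact (mul_eq_zero.1 h1).resolve_left hd0) g hrel
  exact fun i => congrFun h0 i

/-! #### the algebra `H'` of all `A`-valued equivariant functions -/

include hO hΓ in
/-- all `A`-valued `Γ`-equivariant functions on `M` -/
def mzg_q_Hmax : Subalgebra O (M → ff_Qb) where
  carrier := {ψ | (∀ x, ψ x ∈ A) ∧ mzg_q_Eq Γ R ψ}
  mul_mem' := by
    rintro a b ⟨ha1, ha2⟩ ⟨hb1, hb2⟩
    refine ⟨fun x => A.mul_mem _ _ (ha1 x) (hb1 x), fun σ hσ x x' hx => ?_⟩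
    rw [Pi.mul_apply, Pi.mul_apply, ha2 σ hσ x x' hx, hb2 σ hσ x x' hx, map_mul]
  add_mem' := by
    rintro a b ⟨ha1, ha2⟩ ⟨hb1, hb2⟩
    refine ⟨fun x => A.add_mem _ _ (ha1 x) (hb1 x), fun σ hσ x x' hx => ?_⟩
    rw [Pi.add_apply, Pi.add_apply, ha2 σ hσ x x' hx, hb2 σ hσ x x' hx, map_add]
  algebraMap_mem' := by
    intro o
    have hmem : algebraMap O ff_Qb o ∈ (A : Set ff_Qb) ∩ (L₁ : Set ff_Qb) := by
      rw [← hO]; exact ⟨o, rfl⟩
    refine ⟨fun x => hmem.1, fun σ hσ x x' _ => ?_⟩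
    show algebraMap O ff_Qb o = σ (algebraMap O ff_Qb o)
    exact ((hΓ _).1 hmem.2 σ hσ).symm

theorem mzg_q_mem_Hmax {ψ : M → ff_Qb} :
    ψ ∈ mzg_q_Hmax A L₁ O hO Γ hΓ M R ↔ (∀ x, ψ x ∈ A) ∧ mzg_q_Eq Γ R ψ := Iff.rfl

include hHA hHeq in
theorem mzg_q_le_Hmax : H ≤ mzg_q_Hmax A L₁ O hO Γ hΓ M R :=
  fun φ hφ => ⟨hHA φ hφ, hHeq φ hφ⟩

include htot in
/-- every element of `H'` is integral over `O`: it is killed by `∏_{s ∈ ψ(M)} (X - s)`. -/
theorem mzg_q_isIntegral_of_mem_Hmax {ψ : M → ff_Qb}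
    (hψ : ψ ∈ mzg_q_Hmax A L₁ O hO Γ hΓ M R) : IsIntegral O ψ := by
  classical
  haveI : Fintype M := Fintype.ofFinite M
  obtain ⟨hψA, hψeq⟩ := hψ
  set S : Finset ff_Qb := Finset.univ.image ψ with hS
  set P : ff_Qb[X] := ∏ s ∈ S, (X - C s) with hP
  have hmonic : P.Monic := Polynomial.monic_prod_of_monic _ _ (fun s _ => monic_X_sub_C s)
  -- coefficients in `A`
  have hPA : P ∈ Polynomial.lifts A.subtype := by
    rw [hP]
    refine Subsemiring.prod_mem _ (fun s hs => ?_)
    obtain ⟨x, -, rfl⟩ := Finset.mem_image.1 hs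
    rw [Polynomial.mem_lifts]
    exact ⟨X - C ⟨ψ x, hψA x⟩, by simp⟩
  have hcoeffA : ∀ n, P.coeff n ∈ A := by
    intro n
    obtain ⟨a, ha⟩ := (Polynomial.lifts_iff_coeff_lifts P).1 hPA n
    rw [← ha]; exact a.2
  -- coefficients in `L₁`
  have hcoeffL : ∀ n, P.coeff n ∈ L₁ := by
    intro n
    apply (hΓ _).2
    intro σ hσ
    have himg : S.image σ = S := by
      apply Finset.eq_of_subset_of_card_le
      · intro y hy
        obtain ⟨s, hs, rfl⟩ := Finset.mem_image.1 hy
        obtain ⟨x, -, rfl⟩ := Finset.mem_image.1 hs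
        obtain ⟨x', hx'⟩ := htot σ hσ x
        rw [← hψeq σ hσ x x' hx']
        exact Finset.mem_image_of_mem _ (Finset.mem_univ _)
      · rw [Finset.card_image_of_injective _ σ.injective]
    have hmap : P.map (σ : ff_Qb →+* ff_Qb) = P := by
      rw [hP, Polynomial.map_prod]
      have h1 : ∀ s ∈ S, (X - C s : ff_Qb[X]).map (σ : ff_Qb →+* ff_Qb) = X - C (σ s) := by
        intro s _
        simp
      rw [Finset.prod_congr rfl h1]
      conv_rhs => rw [← himg]
      rw [Finset.prod_image (fun a _ b _ h => σ.injective h)]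
    have := congrArg (fun p => p.coeff n) hmap
    simpa [Polynomial.coeff_map] using this
  have hPO : P ∈ Polynomial.lifts (algebraMap O ff_Qb) := by
    rw [Polynomial.lifts_iff_coeff_lifts]
    intro n
    rw [hO]
    exact ⟨hcoeffA n, hcoeffL n⟩
  obtain ⟨q, hq, -, hqmonic⟩ := Polynomial.lifts_and_degree_eq_and_monic hPO hmonic
  refine ⟨q, hqmonic, ?_⟩
  funext x
  have h1 := Polynomial.hom_eval₂ q (algebraMap O (M → ff_Qb)) (Pi.evalRingHom (fun _ => ff_Qb) x) ψ
  have h2 : (Pi.evalRingHom (fun _ : M => ff_Qb) x).comp (algebraMap O (M → ff_Qb)) =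
      algebraMap O ff_Qb := rfl
  rw [h2] at h1
  show (Pi.evalRingHom (fun _ : M => ff_Qb) x) (eval₂ (algebraMap O (M → ff_Qb)) ψ q) = 0
  rw [h1, Polynomial.eval₂_eq_eval_map, hq, hP, Polynomial.eval_prod]
  apply Finset.prod_eq_zero (Finset.mem_image_of_mem ψ (Finset.mem_univ x))
  simp

/-- evaluation at `z`, with values in `A` -/
def mzg_q_ev (z : M) : ↥(mzg_q_Hmax A L₁ O hO Γ hΓ M R) →+* A where
  toFun ψ := ⟨(ψ : M → ff_Qb) z, ψ.2.1 z⟩
  map_one' := rfl
  map_mul' _ _ := rfl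
  map_zero' := rfl
  map_add' _ _ := rfl

/-- evaluation at `z` followed by the residue map of `A` -/
def mzg_q_rho (z : M) : ↥(mzg_q_Hmax A L₁ O hO Γ hΓ M R) →+* IsLocalRing.ResidueField A :=
  (IsLocalRing.residue A).comp (mzg_q_ev A L₁ O hO Γ hΓ M R z)

theorem mzg_q_mem_ker_rho (z : M) (ψ : ↥(mzg_q_Hmax A L₁ O hO Γ hΓ M R)) :
    ψ ∈ RingHom.ker (mzg_q_rho A L₁ O hO Γ hΓ M R z) ↔ (ψ : M → ff_Qb) z ∈ A.nonunits := by
  rw [RingHom.mem_ker]
  show IsLocalRing.residue A (mzg_q_ev A L₁ O hO Γ hΓ M R z ψ) = 0 ↔ _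
  rw [IsLocalRing.residue_eq_zero_iff, ← ValuationSubring.coe_mem_nonunits_iff]
  rfl

/-- the maximal ideals of `H'` are the `𝔪'_z`. -/
theorem mzg_q_maximal_Hmax (Q : Ideal ↥(mzg_q_Hmax A L₁ O hO Γ hΓ M R)) (hQ : Q.IsMaximal) :
    ∃ z : M, Q = RingHom.ker (mzg_q_rho A L₁ O hO Γ hΓ M R z) := by
  classical
  haveI : Fintype M := Fintype.ofFinite M
  rcases isEmpty_or_nonempty M with hM | ⟨⟨z₀⟩⟩
  · exfalso
    apply hQ.ne_top
    rw [Ideal.eq_top_iff_one]
    have h01 : (1 : ↥(mzg_q_Hmax A L₁ O hO Γ hΓ M R)) = 0 :=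
      Subtype.ext (funext fun x => (hM.false x).elim)
    rw [h01]
    exact Q.zero_mem
  by_contra hne
  push Not at hne
  have hnle : ∀ z : M, ¬ Q ≤ RingHom.ker (mzg_q_rho A L₁ O hO Γ hΓ M R z) := by
    intro z hle
    exact hne z (hQ.eq_of_le (RingHom.ker_ne_top _) hle)
  have hnot : ¬ ((Q : Set ↥(mzg_q_Hmax A L₁ O hO Γ hΓ M R)) ⊆
      ⋃ z ∈ ((Finset.univ : Finset M) : Set M),
        (RingHom.ker (mzg_q_rho A L₁ O hO Γ hΓ M R z) : Set _)) := by
    intro hsub
    obtain ⟨z, -, hz⟩ := (Ideal.subset_union_prime (s := (Finset.univ : Finset M))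
      (f := fun z => RingHom.ker (mzg_q_rho A L₁ O hO Γ hΓ M R z)) z₀ z₀
      (fun z _ _ _ => RingHom.ker_isPrime _)).1 hsub
    exact hnle z hz
  rw [Set.not_subset] at hnot
  obtain ⟨ψ, hψQ, hψ⟩ := hnot
  have hunit : ∀ z : M, (ψ : M → ff_Qb) z ∉ A.nonunits := by
    intro z hz
    apply hψ
    simp only [Set.mem_iUnion]
    exact ⟨z, Finset.mem_coe.2 (Finset.mem_univ z),
      (mzg_q_mem_ker_rho A L₁ O hO Γ hΓ M R z ψ).2 hz⟩
  -- the pointwise inverse of `ψ` lies in `H'`
  have hne0 : ∀ z : M, (ψ : M → ff_Qb) z ≠ 0 := by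
    intro z h0
    apply hunit z
    rw [h0]
    exact A.nonunits.zero_mem
  have hinvA : ∀ z : M, ((ψ : M → ff_Qb) z)⁻¹ ∈ A := by
    intro z
    by_contra h
    apply hunit z
    exact (ValuationSubring.mem_nonunits_iff_or (A := A)).2 (Or.inr h)
  let ψinv : ↥(mzg_q_Hmax A L₁ O hO Γ hΓ M R) := ⟨fun z => ((ψ : M → ff_Qb) z)⁻¹, hinvA, by
    intro σ hσ x x' hx
    show ((ψ : M → ff_Qb) x')⁻¹ = σ (((ψ : M → ff_Qb) x)⁻¹)
    rw [ψ.2.2 σ hσ x x' hx, map_inv₀]⟩
  have hmul : ψ * ψinv = 1 := by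
    apply Subtype.ext
    funext z
    show (ψ : M → ff_Qb) z * ((ψ : M → ff_Qb) z)⁻¹ = 1
    exact mul_inv_cancel₀ (hne0 z)
  have h1 : (1 : ↥(mzg_q_Hmax A L₁ O hO Γ hΓ M R)) ∈ Q := by
    rw [← hmul]; exact Q.mul_mem_right _ hψQ
  exact hQ.ne_top ((Ideal.eq_top_iff_one Q).2 h1)

include hO hΓ htot hHA hHeq in
/-- clause (3): every maximal ideal of `H` is `{φ | φ z ∈ 𝔪_A}` for some `z`. -/
theorem mzg_q_maximal (𝔪 : Ideal ↥H) (h𝔪 : 𝔪.IsMaximal) :
    ∃ z : M, ∀ φ : ↥H, φ ∈ 𝔪 ↔ (φ : M → ff_Qb) z ∈ A.nonunits := by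
  classical
  have hle := mzg_q_le_Hmax A L₁ O hO Γ hΓ M R H hHA hHeq
  let j : ↥H →ₐ[O] ↥(mzg_q_Hmax A L₁ O hO Γ hΓ M R) := Subalgebra.inclusion hle
  letI : Algebra ↥H ↥(mzg_q_Hmax A L₁ O hO Γ hΓ M R) := j.toRingHom.toAlgebra
  haveI : IsScalarTower O ↥H ↥(mzg_q_Hmax A L₁ O hO Γ hΓ M R) :=
    IsScalarTower.of_algebraMap_eq (fun o => (j.commutes o).symm)
  haveI : Algebra.IsIntegral ↥H ↥(mzg_q_Hmax A L₁ O hO Γ hΓ M R) := ⟨fun ψ => by
    have h1 : IsIntegral O (ψ : M → ff_Qb) :=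
      mzg_q_isIntegral_of_mem_Hmax A L₁ O hO Γ hΓ M R htot ψ.2
    have h2 : IsIntegral O ψ :=
      (isIntegral_algHom_iff (mzg_q_Hmax A L₁ O hO Γ hΓ M R).val Subtype.val_injective).1 h1
    exact h2.tower_top⟩
  have hker : RingHom.ker (algebraMap ↥H ↥(mzg_q_Hmax A L₁ O hO Γ hΓ M R)) ≤ 𝔪 := by
    have : RingHom.ker (algebraMap ↥H ↥(mzg_q_Hmax A L₁ O hO Γ hΓ M R)) = ⊥ :=
      (RingHom.injective_iff_ker_eq_bot _).1 (Subalgebra.inclusion_injective hle)
    rw [this]; exact bot_le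
  obtain ⟨Q, hQmax, hQ⟩ := Ideal.exists_ideal_over_maximal_of_isIntegral 𝔪 hker
  obtain ⟨z, hz⟩ := mzg_q_maximal_Hmax A L₁ O hO Γ hΓ M R Q hQmax
  refine ⟨z, fun φ => ?_⟩
  rw [← hQ, Ideal.mem_comap, hz, mzg_q_mem_ker_rho]
  rfl

include hO hΓ hsur hHA hHeq in
/-- clause (1): `H` is a finite `O`-module. -/
theorem mzg_q_finite : Module.Finite O ↥H := by
  classical
  haveI : Fintype M := Fintype.ofFinite M
  -- a `Q̄`-basis of `Q̄ H` inside `H`
  obtain ⟨b, hbH, hbspan, hbli⟩ := exists_linearIndependent ff_Qb (H : Set (M → ff_Qb))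
  haveI : Finite b := hbli.finite
  haveI : Fintype b := Fintype.ofFinite b
  set e : b → M → ff_Qb := fun i => (i : M → ff_Qb) with he
  have hli : LinearIndependent ff_Qb e := hbli
  have heH : ∀ i, e i ∈ H := fun i => hbH i.2
  have hind : ∀ c : b → ff_Qb, (∀ x, ∑ i, c i * e i x = 0) → c = 0 := by
    intro c hc
    funext i
    refine Fintype.linearIndependent_iff.1 hli c ?_ i
    funext x
    rw [Finset.sum_apply, Pi.zero_apply, ← hc x]
    exact Finset.sum_congr rfl fun i _ => by rw [Pi.smul_apply, smul_eq_mul]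
  -- the coordinate map
  set T : (b → ff_Qb) →ₗ[ff_Qb] (M → ff_Qb) := Fintype.linearCombination ff_Qb e with hT
  have hTker : LinearMap.ker T = ⊥ := by
    rw [LinearMap.ker_eq_bot']
    intro c hc
    rw [hT, Fintype.linearCombination_apply] at hc
    funext i
    exact Fintype.linearIndependent_iff.1 hli c hc i
  obtain ⟨Sinv, hS⟩ := LinearMap.exists_leftInverse_of_injective T hTker
  set lam : b → M → ff_Qb := fun i x => Sinv (fun j => if x = j then 1 else 0) i with hlam
  have hSinv : ∀ (φ : M → ff_Qb) (i : b), Sinv φ i = ∑ x, φ x * lam i x := by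
    intro φ i
    rw [LinearMap.pi_apply_eq_sum_univ Sinv φ, Finset.sum_apply]
    exact Finset.sum_congr rfl fun x _ => by rw [Pi.smul_apply, smul_eq_mul]
  -- common denominator of the `lam`
  obtain ⟨d, hdA, -, hd0, hd⟩ := ffq_common_denom A ⊤ (Finset.univ : Finset (b × M))
    (fun p => lam p.1 p.2) (fun _ _ => IntermediateField.mem_top)
  obtain ⟨a₀, ha₀, ha₀d⟩ := ffq_exists_int_div A d
  have ha₀Q : (a₀ : ff_Qb) ≠ 0 := by exact_mod_cast ha₀
  -- `a₀ · H ⊆ Σ O e_i`
  have key : ∀ φ ∈ H, ((a₀ : O)) • φ ∈ Submodule.span O (Set.range e) := by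
    intro φ hφ
    have hφspan : φ ∈ Submodule.span ff_Qb (Set.range e) := by
      have : Set.range e = b := Subtype.range_val
      rw [this, hbspan]
      exact Submodule.subset_span hφ
    obtain ⟨c, hc⟩ := (Submodule.mem_span_range_iff_exists_fun ff_Qb).1 hφspan
    have hcφ : ∀ x, φ x = ∑ i, c i * e i x := by
      intro x
      rw [← hc, Finset.sum_apply]
      exact Finset.sum_congr rfl fun i _ => by rw [Pi.smul_apply, smul_eq_mul]
    have hcS : Sinv φ = c := by
      have h1 : T c = φ := by rw [hT, Fintype.linearCombination_apply]; exact hc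
      rw [← h1]
      exact LinearMap.congr_fun hS c
    have hcL : ∀ i, c i ∈ L₁ :=
      mzg_q_coeff_mem L₁ (fun y hy => (hΓ y).2 hy) hsur e (fun i => hHeq _ (heH i)) hind φ
        (hHeq φ hφ) c hcφ
    have hcA : ∀ i, (a₀ : ff_Qb) * c i ∈ A := by
      intro i
      rw [← hcS, hSinv, Finset.mul_sum]
      refine Subring.sum_mem A.toSubring (fun x _ => ?_)
      have h2 : (a₀ : ff_Qb) * (φ x * lam i x) =
          ((a₀ : ff_Qb) * d⁻¹) * (φ x * (d * lam i x)) := by
        field_simp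
      rw [h2]
      exact A.mul_mem _ _ ha₀d (A.mul_mem _ _ (hHA φ hφ x) (hd (i, x) (Finset.mem_univ _)))
    have hex : ∀ i, ∃ o : O, algebraMap O ff_Qb o = (a₀ : ff_Qb) * c i := fun i =>
      ffq_exists_of_mem A L₁ O hO (hcA i) (L₁.mul_mem (intCast_mem L₁ a₀) (hcL i))
    choose o ho using hex
    have hsum : ((a₀ : O)) • φ = ∑ i, o i • e i := by
      funext x
      rw [Pi.smul_apply, Algebra.smul_def, map_intCast, Finset.sum_apply, hcφ x, Finset.mul_sum]
      refine Finset.sum_congr rfl fun i _ => ?_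
      rw [Pi.smul_apply, Algebra.smul_def, ho i, mul_assoc]
    rw [hsum]
    exact Submodule.sum_mem _ (fun i _ => Submodule.smul_mem _ _ (Submodule.subset_span ⟨i, rfl⟩))
  -- conclude
  set N : Submodule O (M → ff_Qb) := Submodule.span O (Set.range e) with hN
  haveI : IsNoetherian O ↥N :=
    isNoetherian_of_fg_of_noetherian N (Submodule.fg_span (Set.finite_range e))
  let f : ↥H →ₗ[O] (M → ff_Qb) :=
    (LinearMap.lsmul O (M → ff_Qb) (a₀ : O)).comp H.val.toLinearMap
  have hf : ∀ φ : ↥H, f φ ∈ N := fun φ => key φ φ.2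
  let μ : ↥H →ₗ[O] ↥N := LinearMap.codRestrict N f hf
  have hμ : Function.Injective μ := by
    intro φ φ' h
    have h1 : ((a₀ : O)) • (φ : M → ff_Qb) = ((a₀ : O)) • (φ' : M → ff_Qb) :=
      congrArg Subtype.val h
    apply Subtype.ext
    funext x
    have h2 := congrFun h1 x
    rw [Pi.smul_apply, Pi.smul_apply, Algebra.smul_def, Algebra.smul_def, map_intCast] at h2
    exact mul_left_cancel₀ ha₀Q h2
  exact Module.Finite.of_injective μ hμ

include hO hΓ htot hsur hHA hHeq in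
/-- **(G-GAL)** abstract Galois theory of equivariant function algebras on a finite SET: the three
clauses of `ff_SeamGAL`. -/
theorem mzg_q_main :
    Module.Finite O ↥H ∧
    (∀ (ι : Type) [Fintype ι] (φ : ι → M → ff_Qb), (∀ j, φ j ∈ H) →
      LinearIndependent O φ → LinearIndependent ff_Qb φ) ∧
    (∀ 𝔪 : Ideal ↥H, 𝔪.IsMaximal → ∃ z : M, ∀ φ : ↥H,
      φ ∈ 𝔪 ↔ (φ : M → ff_Qb) z ∈ A.nonunits) :=
  ⟨mzg_q_finite A L₁ O hO Γ hΓ M R hsur H hHA hHeq,
    fun ι _ φ hφ hli => mzg_q_indep A L₁ O hO Γ hΓ M R hsur H hHeq ι φ hφ hli,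
    fun 𝔪 h𝔪 => mzg_q_maximal A L₁ O hO Γ hΓ M R htot H hHA hHeq 𝔪 h𝔪⟩

end Seam

/-! ### corollaries: the fixing subgroup of `L₁`; a subgroup acting on `M` -/

/-- the fixed field of `Gal(Q̄/L₁)` is `L₁` (the hypothesis `hΓ` of `mzg_q_main` for
`Γ = L₁.fixingSubgroup`). -/
theorem mzg_q_fixed_fixingSubgroup (L₁ : IntermediateField ℚ ff_Qb) (y : ff_Qb) :
    y ∈ L₁ ↔ ∀ σ ∈ (L₁.fixingSubgroup : Set ff_GQ), σ y = y :=
  ⟨fun hy σ hσ => (IntermediateField.mem_fixingSubgroup_iff L₁ σ).1 hσ y hy,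
    fun h => ffq_mem_of_fixed L₁ h⟩

/-- **(G-GAL)** for a subgroup `Γ ≤ G_ℚ` with fixed field `L₁` ACTING on the finite set `M`. -/
theorem mzg_q_main_act (A : ValuationSubring ff_Qb) (L₁ : IntermediateField ℚ ff_Qb)
    (O : Type) [CommRing O] [IsDomain O] [IsDiscreteValuationRing O] [Algebra O ff_Qb]
    (hO : Set.range (algebraMap O ff_Qb) = (A : Set ff_Qb) ∩ (L₁ : Set ff_Qb))
    (Γ : Subgroup ff_GQ) (hΓ : ∀ y : ff_Qb, y ∈ L₁ ↔ ∀ σ ∈ Γ, σ y = y)
    (M : Type) [Finite M] [MulAction ↥Γ M] (H : Subalgebra O (M → ff_Qb))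
    (hHA : ∀ φ ∈ H, ∀ x : M, φ x ∈ A)
    (hHeq : ∀ φ ∈ H, ∀ (σ : ↥Γ) (x : M), φ (σ • x) = (σ : ff_GQ) (φ x)) :
    Module.Finite O ↥H ∧
    (∀ (ι : Type) [Fintype ι] (φ : ι → M → ff_Qb), (∀ j, φ j ∈ H) →
      LinearIndependent O φ → LinearIndependent ff_Qb φ) ∧
    (∀ 𝔪 : Ideal ↥H, 𝔪.IsMaximal → ∃ z : M, ∀ φ : ↥H,
      φ ∈ 𝔪 ↔ (φ : M → ff_Qb) z ∈ A.nonunits) := by
  refine mzg_q_main A L₁ O hO (Γ : Set ff_GQ) hΓ M
    (fun σ x x' => ∃ h : σ ∈ Γ, x' = (⟨σ, h⟩ : ↥Γ) • x) ?_ ?_ H hHA ?_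
  · exact fun σ hσ x => ⟨(⟨σ, hσ⟩ : ↥Γ) • x, hσ, rfl⟩
  · exact fun σ hσ x' => ⟨(⟨σ, hσ⟩ : ↥Γ)⁻¹ • x', hσ, (smul_inv_smul _ _).symm⟩
  · rintro φ hφ σ _ x x' ⟨h, rfl⟩
    exact hHeq φ hφ ⟨σ, h⟩ x

/-! ### bonus: a point-separating algebra of functions is a full lattice -/

section Span

variable {O : Type} [CommRing O] {K : Type} [Field K] [Algebra O K] {M : Type} [Finite M]

/-- **Lagrange products**: an `O`-algebra of functions `M → K` (`M` finite, `K` a field) which
separates the points of `M` spans `Map(M, K)` over `K`. -/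
theorem mzg_q_span_top (H : Subalgebra O (M → K))
    (hsep : ∀ x y : M, x ≠ y → ∃ φ ∈ H, φ x ≠ φ y) :
    Submodule.span K (H : Set (M → K)) = ⊤ := by
  classical
  haveI : Fintype M := Fintype.ofFinite M
  set W : Subalgebra K (M → K) := Algebra.adjoin K (H : Set (M → K)) with hW
  have hWspan : Subalgebra.toSubmodule W = Submodule.span K (H : Set (M → K)) := by
    rw [hW, Algebra.adjoin_eq_span]
    congr 1
    exact congrArg (fun S : Submonoid (M → K) => (S : Set (M → K)))
      (Submonoid.closure_eq H.toSubmonoid)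
  have hHW : ∀ φ ∈ H, φ ∈ W := fun φ hφ => Algebra.subset_adjoin hφ
  -- the indicator functions
  have hδ : ∀ x : M, (Pi.single x (1 : K) : M → K) ∈ W := by
    intro x
    have hex : ∀ y : M, ∃ φ : M → K, φ ∈ H ∧ (y ≠ x → φ x ≠ φ y) := by
      intro y
      by_cases hy : y = x
      · exact ⟨1, H.one_mem, fun h => (h hy).elim⟩
      · obtain ⟨φ, hφ, h⟩ := hsep x y (Ne.symm hy)
        exact ⟨φ, hφ, fun _ => h⟩
    choose φ hφH hφ using hex
    have hprod : (Pi.single x (1 : K) : M → K) = ∏ y ∈ Finset.univ.erase x,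
        ((φ y x - φ y y)⁻¹ • (φ y - algebraMap K (M → K) (φ y y))) := by
      funext z
      rw [Finset.prod_apply]
      by_cases hz : z = x
      · subst hz
        rw [Pi.single_eq_same]
        symm
        apply Finset.prod_eq_one
        intro y hy
        have hyx : y ≠ z := Finset.ne_of_mem_erase hy
        have h1 : φ y z - φ y y ≠ 0 := sub_ne_zero.2 (hφ y hyx)
        rw [Pi.smul_apply, Pi.sub_apply, smul_eq_mul]
        exact inv_mul_cancel₀ h1
      · rw [Pi.single_eq_of_ne hz]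
        symm
        apply Finset.prod_eq_zero (Finset.mem_erase.2 ⟨hz, Finset.mem_univ z⟩)
        rw [Pi.smul_apply, Pi.sub_apply, smul_eq_mul]
        have : (algebraMap K (M → K) (φ z z)) z = φ z z := rfl
        rw [this, sub_self, mul_zero]
    rw [hprod]
    refine Subalgebra.prod_mem W fun y _ => ?_
    exact W.smul_mem (W.sub_mem (hHW _ (hφH y)) (W.algebraMap_mem _)) _
  rw [← hWspan, eq_top_iff]
  intro f _
  have hf : f = ∑ x, f x • (Pi.single x (1 : K) : M → K) := by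
    funext z
    rw [Finset.sum_apply, Finset.sum_eq_single z]
    · rw [Pi.smul_apply, Pi.single_eq_same, smul_eq_mul, mul_one]
    · intro x _ hxz
      rw [Pi.smul_apply, Pi.single_eq_of_ne (Ne.symm hxz), smul_zero]
    · intro h
      exact (h (Finset.mem_univ z)).elim
  rw [hf]
  exact Submodule.sum_mem _ fun x _ => Submodule.smul_mem _ _ (hδ x)

/-- a finite point-separating `O`-algebra of functions `M → K` over a principal ideal domain
`O ⊆ K` in which `O`-independent families are `K`-independent is `O`-free of rank `card M`. -/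
theorem mzg_q_free_finrank [IsDomain O] [IsPrincipalIdealRing O]
    (hinj : Function.Injective (algebraMap O K)) (H : Subalgebra O (M → K))
    (hfin : Module.Finite O ↥H)
    (hindep : ∀ (ι : Type) [Fintype ι] (φ : ι → M → K), (∀ j, φ j ∈ H) →
      LinearIndependent O φ → LinearIndependent K φ)
    (hsep : ∀ x y : M, x ≠ y → ∃ φ ∈ H, φ x ≠ φ y) :
    Module.Free O ↥H ∧ Module.finrank O ↥H = Nat.card M := by
  classical
  haveI : Fintype M := Fintype.ofFinite M
  haveI : Module.IsTorsionFree O K := Module.isTorsionFree_iff_algebraMap_injective.mpr hinj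
  haveI : Module.IsTorsionFree O (M → K) := by
    refine ⟨fun r hr f g hfg => ?_⟩
    funext x
    have h := congrFun hfg x
    simp only [Pi.smul_apply] at h
    exact hr.isSMulRegular h
  haveI : Module.IsTorsionFree O ↥H :=
    Function.Injective.moduleIsTorsionFree (fun φ : ↥H => (φ : M → K)) Subtype.val_injective
      (fun _ _ => rfl)
  haveI : Module.Free O ↥H := Module.free_of_finite_type_torsion_free'
  refine ⟨inferInstance, ?_⟩
  let b := Module.finBasis O ↥H
  set n := Module.finrank O ↥H with hn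
  set e : Fin n → M → K := fun i => ((b i : ↥H) : M → K) with he
  have heH : ∀ i, e i ∈ H := fun i => (b i).2
  have hliO : LinearIndependent O e := by
    have h1 : LinearIndependent O (fun i => b i) := b.linearIndependent
    exact h1.map' H.val.toLinearMap (LinearMap.ker_eq_bot.2 Subtype.val_injective)
  have hliK : LinearIndependent K e := hindep (Fin n) e heH hliO
  -- the `K`-span of the `e i` is everything
  have hspan : Submodule.span K (Set.range e) = ⊤ := by
    rw [eq_top_iff, ← mzg_q_span_top H hsep, Submodule.span_le]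
    intro φ hφ
    have h1 : (⟨φ, hφ⟩ : ↥H) ∈ Submodule.span O (Set.range b) := by
      rw [b.span_eq]; exact Submodule.mem_top
    obtain ⟨c, hc⟩ := (Submodule.mem_span_range_iff_exists_fun O).1 h1
    have h2 : φ = ∑ i, algebraMap O K (c i) • e i := by
      have := congrArg (fun ψ : ↥H => (ψ : M → K)) hc
      simp only [AddSubmonoidClass.coe_finsetSum, SetLike.val_smul] at this
      rw [← this]
      refine Finset.sum_congr rfl fun i _ => ?_
      funext x
      rw [Pi.smul_apply, Pi.smul_apply, Algebra.smul_def (c i), smul_eq_mul]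
    rw [h2]
    exact Submodule.sum_mem _ fun i _ =>
      Submodule.smul_mem _ _ (Submodule.subset_span ⟨i, rfl⟩)
  have hcard : Module.finrank K (M → K) = n := by
    have hb : Module.Basis (Fin n) K (M → K) := Module.Basis.mk hliK (by rw [hspan])
    rw [Module.finrank_eq_card_basis hb, Fintype.card_fin]
  rw [← hcard, Module.finrank_pi, Nat.card_eq_fintype_card]

end Span

end Fermat.Agent.MZ
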