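/-
MAZUR project (S15), node [GEO] (helper26; cell owner helper27).  Prefix `mzg_hh_`.

FROM (G-GAL) TO THE HYPOTHESES `ffa_HHyp` OF THE RESIDUATION THEOREMS (`Geo/Add2.lean`,
`Geo/Decomp.lean`): the block `hgenA / hHA / hHeq / hGAL / hΔ` of `ff_local_of_seams`
(`FF/AssemblyGeom.lean`), for a family of points `PK : M → Fin g → 𝒜 →ₐ[O] Q̄` indexed by a finite
SET `M` with a relation `R σ z z'` ("`z' = σ z`"), `σ` in a set `Γ` of automorphisms of `Q̄` with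
fixed field `L₁` (`Geo/GalSet.lean`).

* `mzg_hh_gen_mem`  : the generators `e_i(a(P_z))` are `A`-valued;
* `mzg_hh_int`      : all of `H = ff_symAlg PK` is `A`-valued;
* `mzg_hh_eqv`      : all of `H` is `Γ`-equivariant (`mzg_q_Eq Γ R`);
* `mzg_hh_of_gal`   : `ffa_HHyp PK Pκ A.toSubring res`.
-/
import Mathlib
import Fermat.Agent.FF.Add.Seams
import Fermat.Agent.MZ.Geo.GalSet

set_option autoImplicit false

noncomputable section

namespace Fermat.Agent.MZ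

open Fermat.Agent.FF

section

variable (A : ValuationSubring ff_Qb) (L₁ : IntermediateField ℚ ff_Qb)
  (O : Type) [CommRing O] [Algebra O ff_Qb]
  (hO : Set.range (algebraMap O ff_Qb) = (A : Set ff_Qb) ∩ (L₁ : Set ff_Qb))
  (Γ : Set ff_GQ) (hΓ : ∀ y : ff_Qb, y ∈ L₁ ↔ ∀ σ ∈ Γ, σ y = y)
  (M : Type) (R : ff_GQ → M → M → Prop)
  (𝒜 : Type) [CommRing 𝒜] [Algebra O 𝒜] (g : ℕ)
  (PK : M → Fin g → 𝒜 →ₐ[O] ff_Qb)

include hO in
theorem mzg_hh_const_mem (o : O) : algebraMap O ff_Qb o ∈ A ∧ algebraMap O ff_Qb o ∈ L₁ := by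
  have : algebraMap O ff_Qb o ∈ (A : Set ff_Qb) ∩ (L₁ : Set ff_Qb) := by
    rw [← hO]; exact ⟨o, rfl⟩
  exact this

/-- the generators are `A`-valued -/
theorem mzg_hh_gen_mem (hP : ∀ z j a, PK z j a ∈ A) (a : 𝒜) (i : ℕ) (z : M) :
    ff_symFun PK a i z ∈ A := by
  unfold ff_symFun
  rw [Multiset.esymm]
  refine Subring.multiset_sum_mem A.toSubring _ ?_
  intro c hc
  rw [Multiset.mem_map] at hc
  obtain ⟨t, ht, rfl⟩ := hc
  refine Subring.multiset_prod_mem A.toSubring _ ?_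
  intro d hd
  have hd' := Multiset.mem_of_le (Multiset.mem_powersetCard.1 ht).1 hd
  rw [Multiset.mem_map] at hd'
  obtain ⟨j, -, rfl⟩ := hd'
  exact hP z j a

include hO in
/-- all of `H` is `A`-valued -/
theorem mzg_hh_int (hP : ∀ z j a, PK z j a ∈ A) :
    ∀ φ ∈ ff_symAlg PK, ∀ x : M, φ x ∈ A := by
  intro φ hφ
  induction hφ using Algebra.adjoin_induction with
  | mem φ hφ =>
    obtain ⟨a, i, rfl⟩ := hφ
    exact mzg_hh_gen_mem A O M 𝒜 g PK hP a i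
  | algebraMap o => exact fun x => (mzg_hh_const_mem A L₁ O hO o).1
  | add φ ψ _ _ h1 h2 => exact fun x => A.add_mem _ _ (h1 x) (h2 x)
  | mul φ ψ _ _ h1 h2 => exact fun x => A.mul_mem _ _ (h1 x) (h2 x)

include hO hΓ in
/-- all of `H` is `Γ`-equivariant -/
theorem mzg_hh_eqv
    (hequiv : ∀ σ ∈ Γ, ∀ z z' : M, R σ z z' → ∀ (a : 𝒜) (i : ℕ),
      ff_symFun PK a i z' = σ (ff_symFun PK a i z)) :
    ∀ φ ∈ ff_symAlg PK, mzg_q_Eq Γ R φ := by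
  intro φ hφ
  induction hφ using Algebra.adjoin_induction with
  | mem φ hφ =>
    obtain ⟨a, i, rfl⟩ := hφ
    exact fun σ hσ x x' hx => hequiv σ hσ x x' hx a i
  | algebraMap o =>
    intro σ hσ x x' _
    have h1 : (algebraMap O (M → ff_Qb) o) = fun _ => algebraMap O ff_Qb o := rfl
    rw [h1]
    exact ((hΓ _).1 (mzg_hh_const_mem A L₁ O hO o).2 σ hσ).symm
  | add φ ψ _ _ h1 h2 =>
    intro σ hσ x x' hx
    rw [Pi.add_apply, Pi.add_apply, h1 σ hσ x x' hx, h2 σ hσ x x' hx, map_add]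
  | mul φ ψ _ _ h1 h2 =>
    intro σ hσ x x' hx
    rw [Pi.mul_apply, Pi.mul_apply, h1 σ hσ x x' hx, h2 σ hσ x x' hx, map_mul]

end

/-- **(G-GAL) ⟹ `ffa_HHyp`**: the hypotheses of the residuation theorems for a family of `A`-integral
points indexed by a finite set with a compatible action of a set `Γ` of automorphisms of `Q̄` with
fixed field `L₁` (`O → Q̄` a discrete valuation ring with image `A ∩ L₁`, `res : A → κ` the residue
map). -/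
theorem mzg_hh_of_gal (A : ValuationSubring ff_Qb) (L₁ : IntermediateField ℚ ff_Qb)
    (O : Type) [CommRing O] [IsDomain O] [IsDiscreteValuationRing O] [Algebra O ff_Qb]
    (hO : Set.range (algebraMap O ff_Qb) = (A : Set ff_Qb) ∩ (L₁ : Set ff_Qb))
    (κ : Type) [Field κ] [Algebra O κ] (res : ↥A →+* κ)
    (hker : ∀ c : ↥A, res c = 0 ↔ (c : ff_Qb) ∈ A.nonunits)
    (hresO : ∀ (o : O) (h : algebraMap O ff_Qb o ∈ A), res ⟨_, h⟩ = algebraMap O κ o)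
    (Γ : Set ff_GQ) (hΓ : ∀ y : ff_Qb, y ∈ L₁ ↔ ∀ σ ∈ Γ, σ y = y)
    (M : Type) [Finite M] (R : ff_GQ → M → M → Prop)
    (htot : ∀ σ ∈ Γ, ∀ x : M, ∃ x', R σ x x') (hsur : ∀ σ ∈ Γ, ∀ x' : M, ∃ x, R σ x x')
    (𝒜 : Type) [CommRing 𝒜] [Algebra O 𝒜] (g : ℕ)
    (PK : M → Fin g → 𝒜 →ₐ[O] ff_Qb) (Pκ : M → Fin g → 𝒜 →ₐ[O] κ)
    (hP : ∀ z j a, ∃ h : PK z j a ∈ A, res ⟨_, h⟩ = Pκ z j a)
    (hequiv : ∀ σ ∈ Γ, ∀ z z' : M, R σ z z' → ∀ (a : 𝒜) (i : ℕ),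
      ff_symFun PK a i z' = σ (ff_symFun PK a i z)) :
    ffa_HHyp PK Pκ A.toSubring res := by
  have hHA := mzg_hh_int A L₁ O hO M 𝒜 g PK (fun z j a => (hP z j a).1)
  have hHeq := mzg_hh_eqv A L₁ O hO Γ hΓ M R 𝒜 g PK hequiv
  obtain ⟨hfin, hind, hmax⟩ :=
    mzg_q_main A L₁ O hO Γ hΓ M R htot hsur (ff_symAlg PK) hHA hHeq
  refine ⟨fun o => ⟨(mzg_hh_const_mem A L₁ O hO o).1, hresO o _⟩, hP, hfin, hind, ?_⟩
  intro 𝔪 h𝔪
  obtain ⟨z, hz⟩ := hmax 𝔪 h𝔪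
  refine ⟨z, fun φ => (hz φ).trans ⟨fun h => ?_, fun h => ?_⟩⟩
  · exact ⟨⟨_, hHA φ φ.2 z⟩, rfl, (hker ⟨_, hHA φ φ.2 z⟩).2 h⟩
  · obtain ⟨c, hc, hc0⟩ := h
    rw [← hc]
    exact (hker c).1 hc0

end Fermat.Agent.MZ
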