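/-
Project MAZUR (S15), cell [GEO] (owner: helper27), file (G-PT), concrete part.  Prefix `mzg_pt_`,
`mzg_`.

THE CONCRETE WIRING of `mzg_pt_abs` (`MZ/Geo/PtSet.lean`) at a place `A` of `Q̄` over a prime
`ℓ ∤ N`: the level `L₁ = Q̄^{I_A}` (`ffi_L A`, `ffi_lvi`), the `j`-chart package of `X₀(N)` over
`O = A ∩ L₁` (`ffi_pkg_of_seams`), node E (`rpw_nodeE`), and for EVERY FINITE SET `S ⊆ J₀(N)(Q̄)`
the divisors `D_z ∼ z + E₀`, `z ∈ S`, their points `PK`, reductions `Pκ`, with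

* `ff_LinEq` in BOTH fibres for ALL `w x y z : Option ↥S` whose classes satisfy `w + x = y + z`
  (`none` = the class `0` = the divisor `E₀`);
* `ff_Uniq` in both fibres;
* equivariance under every `σ` fixing `L₁` and stabilising `S`;
* separation of the points of `S` by the symmetric functions;
* **[GEO-SEP]**: if the symmetric functions of the REDUCED points of `D_z`, `D_z'` agree then
  `reductionModL A N z = reductionModL A N z'`.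

`mzg_SeamINST N ℓ` is the statement (the analogue of `ff_SeamINST`; the package is chosen BEFORE
the finite set `S`), `mzg_inst` the closed theorem.
Everything is imported from the frozen FF closure; nothing here is new mathematics.
-/
import Mathlib
import Fermat.Agent.FF.Inst.Closed
import Fermat.Agent.MZ.Geo.PtSet

set_option autoImplicit false
set_option linter.style.haveILetI false
set_option linter.unusedSectionVars false

noncomputable section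

namespace Fermat.Agent.MZ

open ModularCurve AlgebraicCurve IntermediateField Fermat.Agent.JT3 Fermat.Agent.S24
  Fermat.Agent.FF
open scoped TensorProduct

/-! ### generic level, generic residue field -/

/-- the class map of a subset of `J₀(N)`. -/
abbrev mzg_pt_cls (N : ℕ) [NeZero N] (S : Set (JZero N)) :
    ↥S → Pic0 ff_Qb ↥(modularFunctionFieldBar N) := fun z => (z : JZero N)

/-- **the points over a generic level**: the analogue of `ffi_SeamPT` for a finite set. -/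
theorem mzg_pt_of_level (N : ℕ) [NeZero N] (ℓ : ℕ) (hℓ : ℓ.Prime) (hℓN : ¬ ℓ ∣ N)
    (A : ValuationSubring ff_Qb) (hA : A.LiesOverPrime ℓ)
    (L : Type) [Field L] [Algebra ℚ L] [Algebra L ff_Qb] [IsScalarTower ℚ L ff_Qb]
    (lvl : ffi_LvlOK A L ℓ)
    (κ : Type) [Field κ] [IsAlgClosed κ] [Algebra ↥(ffi_O A L) κ] (π : ↥A →+* κ)
    (hres : ffi_ResOK A L κ π)
    (r : Place ff_Qb ↥(modularFunctionFieldBar N) → Place κ ↥(modularFunctionFieldFullC κ N))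
    (hr : IsPlaceReductionAlong A π N r) (hgen : PrincipalGeneratedByIntegral A π N)
    (g n m0 c0 : ℕ)
    (ιK : ff_Qb ⊗[↥(ffi_O A L)] ↥(ffi_A1 A L N) →ₐ[ff_Qb] ↥(modularFunctionFieldBar N))
    (ικ : κ ⊗[↥(ffi_O A L)] ↥(ffi_A1 A L N) →ₐ[κ] ↥(modularFunctionFieldFullC κ N))
    (D : ffi_PkgData A L κ N ℓ g n m0 c0 ιK ικ)
    (S : Set (JZero N)) (hS : S.Finite) :
    ∃ (PK : ↥S → Fin g → ↥(ffi_A1 A L N) →ₐ[↥(ffi_O A L)] ff_Qb)
      (Pκ : ↥S → Fin g → ↥(ffi_A1 A L N) →ₐ[↥(ffi_O A L)] κ)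
      (P0 : Fin g → ↥(ffi_A1 A L N) →ₐ[↥(ffi_O A L)] ↥(ffi_O A L)),
      (∀ z j a, ∃ h : PK z j a ∈ A, π ⟨_, h⟩ = Pκ z j a) ∧
      (∀ w x y z : Option ↥S,
        mzg_pt_optCls (mzg_pt_cls N S) w + mzg_pt_optCls (mzg_pt_cls N S) x =
          mzg_pt_optCls (mzg_pt_cls N S) y + mzg_pt_optCls (mzg_pt_cls N S) z →
        ff_LinEq ↥(ffi_O A L) ↥(ffi_A1 A L N) (ffi_gC ↥(ffi_O A L) (ffi_j L N)) ff_Qb
          (ffi_gLam ↥(ffi_O A L) (ffi_j L N)) (ffi_gLead ↥(ffi_O A L) (ffi_j L N))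
          (ff_ptIdeal ff_Qb (mzg_pt_opt P0 PK w)) (ff_ptIdeal ff_Qb (mzg_pt_opt P0 PK x))
          (ff_ptIdeal ff_Qb (mzg_pt_opt P0 PK y)) (ff_ptIdeal ff_Qb (mzg_pt_opt P0 PK z))) ∧
      (∀ z, ff_Uniq ↥(ffi_O A L) ↥(ffi_A1 A L N) (ffi_gC ↥(ffi_O A L) (ffi_j L N)) ff_Qb
        (ffi_gLam ↥(ffi_O A L) (ffi_j L N)) (ffi_gLead ↥(ffi_O A L) (ffi_j L N))
        (ff_ptIdeal ff_Qb (PK z))) ∧
      (∀ w x y z : Option ↥S,
        mzg_pt_optCls (mzg_pt_cls N S) w + mzg_pt_optCls (mzg_pt_cls N S) x =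
          mzg_pt_optCls (mzg_pt_cls N S) y + mzg_pt_optCls (mzg_pt_cls N S) z →
        ff_LinEq ↥(ffi_O A L) ↥(ffi_A1 A L N) (ffi_gC ↥(ffi_O A L) (ffi_j L N)) κ
          (ffi_gLam ↥(ffi_O A L) (ffi_j L N)) (ffi_gLead ↥(ffi_O A L) (ffi_j L N))
          (ff_ptIdeal κ (mzg_pt_opt P0 Pκ w)) (ff_ptIdeal κ (mzg_pt_opt P0 Pκ x))
          (ff_ptIdeal κ (mzg_pt_opt P0 Pκ y)) (ff_ptIdeal κ (mzg_pt_opt P0 Pκ z))) ∧
      (∀ z, ff_Uniq ↥(ffi_O A L) ↥(ffi_A1 A L N) (ffi_gC ↥(ffi_O A L) (ffi_j L N)) κ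
        (ffi_gLam ↥(ffi_O A L) (ffi_j L N)) (ffi_gLead ↥(ffi_O A L) (ffi_j L N))
        (ff_ptIdeal κ (Pκ z))) ∧
      (∀ σ : ff_GQ, (∀ c : L, σ (algebraMap L ff_Qb c) = algebraMap L ff_Qb c) →
        (∀ x ∈ S, σ • x ∈ S) → ∀ z z' : ↥S, (z' : JZero N) = σ • (z : JZero N) →
        ∀ a i, ff_symFun PK a i z' = σ (ff_symFun PK a i z)) ∧
      (∀ z z', z ≠ z' → ∃ a i, ff_symFun PK a i z ≠ ff_symFun PK a i z') ∧
      (∀ z z' : ↥S,
        (∀ (a : ↥(ffi_A1 A L N)) (i : ℕ),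
          ((Finset.univ : Finset (Fin g)).val.map fun j => Pκ z j a).esymm i =
            ((Finset.univ : Finset (Fin g)).val.map fun j => Pκ z' j a).esymm i) →
        ∀ Z Z' : Divisor.degZero (K := ff_Qb) (F := ↥(modularFunctionFieldBar N)),
          Pic0.mk Z = (z : JZero N) → Pic0.mk Z' = (z' : JZero N) →
          Finsupp.mapDomain r (Z : Divisor ff_Qb ↥(modularFunctionFieldBar N)) -
            Finsupp.mapDomain r (Z' : Divisor ff_Qb ↥(modularFunctionFieldBar N)) ∈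
            Divisor.principal (K := κ) (F := ↥(modularFunctionFieldFullC κ N))) := by
  obtain ⟨hred, hxK, hxκ, hfixL, hinA, hinL⟩ :=
    ffi_pt_wire N ℓ hℓ hℓN A hA L lvl κ π hres r hr hgen g n m0 c0 ιK ικ D
  haveI := lvl.dvr
  haveI : Finite ↥S := hS.to_subtype
  set X := ffi_gX ↥(ffi_O A L) (ffi_j L N) with hX
  have dictK : ffi_IsDict ↥(ffi_O A L) ↥(ffi_A1 A L N) (ffi_gC ↥(ffi_O A L) (ffi_j L N)) ff_Qb
      (ffi_gLam ↥(ffi_O A L) (ffi_j L N)) (ffi_gLead ↥(ffi_O A L) (ffi_j L N))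
      ↥(modularFunctionFieldBar N) (ιK (1 ⊗ₜ[↥(ffi_O A L)] X)) ιK g 0 := by
    rw [hxK]; exact D.dictK
  have dictκ : ffi_IsDict ↥(ffi_O A L) ↥(ffi_A1 A L N) (ffi_gC ↥(ffi_O A L) (ffi_j L N)) κ
      (ffi_gLam ↥(ffi_O A L) (ffi_j L N)) (ffi_gLead ↥(ffi_O A L) (ffi_j L N))
      ↥(modularFunctionFieldFullC κ N) (ικ (1 ⊗ₜ[↥(ffi_O A L)] X)) ικ g m0 := by
    rw [hxκ]; exact D.dictκ
  -- the inertia set
  let I : Set ↥(SemilinearAut ff_Qb ↥(modularFunctionFieldBar N)) :=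
    {τ | ∃ σ ∈ A.inertiaSubgroupIn ℚ, τ = ffi_pt_gal N σ}
  have hI1 : ∀ τ ∈ I, ∀ a : ↥(ffi_A1 A L N), τ • ιK (1 ⊗ₜ[↥(ffi_O A L)] a) =
      ιK (1 ⊗ₜ[↥(ffi_O A L)] a) := by
    rintro τ ⟨σ, hσ, rfl⟩ a
    exact hfixL σ (hinL σ hσ) a
  have hI2 : ∀ τ ∈ I, ∀ c : ↥A, ∃ h : SemilinearAut.baseAut τ (c : ff_Qb) ∈ A,
      π ⟨_, h⟩ = π c := by
    rintro τ ⟨σ, hσ, rfl⟩ c
    exact hinA σ hσ c
  have hI3 : ∀ c : ↥A, (∀ τ ∈ I, SemilinearAut.baseAut τ (c : ff_Qb) = c) →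
      (c : ff_Qb) ∈ Set.range (algebraMap ↥(ffi_O A L) ff_Qb) := by
    intro c hc
    have h1 : (c : ff_Qb) ∈ (algebraMap L ff_Qb).range :=
      (lvl.fix (c : ff_Qb)).mpr fun σ hσ => hc _ ⟨σ, hσ, rfl⟩
    obtain ⟨b, hb⟩ := h1
    have hbO : b ∈ ffi_O A L := by
      rw [ffi_mem_O, hb]; exact c.2
    exact ⟨⟨b, hbO⟩, hb⟩
  have hcls : Function.Injective (mzg_pt_cls N S) := Subtype.val_injective
  obtain ⟨PK, Pκ, P0, h1, h2, h3, h4, h5, h6, h7, h8⟩ :=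
    mzg_pt_abs ↥(ffi_O A L) ↥(ffi_A1 A L N) (ffi_gC ↥(ffi_O A L) (ffi_j L N))
      ((ℓ : ℕ) : ↥(ffi_O A L)) ff_Qb κ (ffi_gLam ↥(ffi_O A L) (ffi_j L N))
      (ffi_gLead ↥(ffi_O A L) (ffi_j L N)) g n m0 c0 D.pkg
      ↥(modularFunctionFieldBar N) ↥(modularFunctionFieldFullC κ N) ιK ικ 0 m0 A π r X
      dictK dictκ hred I hI1 hI2 hI3 ↥S (mzg_pt_cls N S) hcls
  refine ⟨PK, Pκ, P0, h1, h2, h3, h4, h5, ?_, h7, h8⟩
  intro σ hσ hstab z z' hzz' a i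
  have h := h6 (ffi_pt_gal N σ) (fun z => ⟨σ • (z : JZero N), hstab _ z.2⟩) (hfixL σ hσ)
    (fun o => hσ (o : L)) (fun z => rfl) z a i
  have hz' : z' = ⟨σ • (z : JZero N), hstab _ z.2⟩ := Subtype.ext hzz'
  rw [hz']
  exact h

/-! ### the statement and the closed theorem -/

/-- **[GEO], the instance**: the analogue of `ff_SeamINST` for arbitrary finite sets of points of
`J₀(N)(Q̄)`, with the package chosen before the set, `ff_LinEq` for all relations `w + x = y + z`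
(`Option`-indexed: `none = 0`), and [GEO-SEP]. -/
def mzg_SeamINST (N : ℕ) [NeZero N] (ℓ : ℕ) : Prop :=
  ∀ A : ValuationSubring ff_Qb, A.LiesOverPrime ℓ →
  ∃ (L₁ : IntermediateField ℚ ff_Qb)
    (O : Type) (_ : CommRing O) (_ : IsDomain O) (_ : IsDiscreteValuationRing O)
    (_ : Algebra O ff_Qb) (_ : Algebra O (IsLocalRing.ResidueField ↥A))
    (_ : IsAlgClosed (IsLocalRing.ResidueField ↥A))
    (𝒜 : Type) (_ : CommRing 𝒜) (_ : Algebra O 𝒜) (C : Type) (_ : CommRing C) (_ : Algebra O C)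
    (π : O) (Λ : ℕ → Submodule O 𝒜) (lead : ∀ m, ↥(Λ m) →ₗ[O] C) (g n m0 c0 : ℕ),
    -- the level: `L₁ = Q̄^{I_A}`, unramified, `O = A ∩ L₁`, compatibly with the residue maps
    (∀ a : ff_Qb, a ∈ L₁ ↔ ∀ σ ∈ A.inertiaSubgroupIn ℚ, σ a = a) ∧
    (∀ a ∈ L₁, a ∈ A.nonunits → a / (ℓ : ff_Qb) ∈ A) ∧
    Set.range (algebraMap O ff_Qb) = (A : Set ff_Qb) ∩ (L₁ : Set ff_Qb) ∧
    (∀ (o : O) (h : algebraMap O ff_Qb o ∈ A),
      IsLocalRing.residue ↥A ⟨_, h⟩ = algebraMap O (IsLocalRing.ResidueField ↥A) o) ∧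
    -- the package
    ff_IsPkg O 𝒜 C π ff_Qb (IsLocalRing.ResidueField ↥A) Λ lead g n m0 c0 ∧
    -- the points, for every finite set
    ∀ S : Set (JZero N), S.Finite →
    ∃ (PK : ↥S → Fin g → 𝒜 →ₐ[O] ff_Qb)
      (Pκ : ↥S → Fin g → 𝒜 →ₐ[O] IsLocalRing.ResidueField ↥A)
      (P0 : Fin g → 𝒜 →ₐ[O] O),
      (∀ z j a, ∃ h : PK z j a ∈ A, IsLocalRing.residue ↥A ⟨_, h⟩ = Pκ z j a) ∧
      (∀ w x y z : Option ↥S,
        mzg_pt_optCls (mzg_pt_cls N S) w + mzg_pt_optCls (mzg_pt_cls N S) x =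
          mzg_pt_optCls (mzg_pt_cls N S) y + mzg_pt_optCls (mzg_pt_cls N S) z →
        ff_LinEq O 𝒜 C ff_Qb Λ lead
          (ff_ptIdeal ff_Qb (mzg_pt_opt P0 PK w)) (ff_ptIdeal ff_Qb (mzg_pt_opt P0 PK x))
          (ff_ptIdeal ff_Qb (mzg_pt_opt P0 PK y)) (ff_ptIdeal ff_Qb (mzg_pt_opt P0 PK z))) ∧
      (∀ z, ff_Uniq O 𝒜 C ff_Qb Λ lead (ff_ptIdeal ff_Qb (PK z))) ∧
      (∀ w x y z : Option ↥S,
        mzg_pt_optCls (mzg_pt_cls N S) w + mzg_pt_optCls (mzg_pt_cls N S) x =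
          mzg_pt_optCls (mzg_pt_cls N S) y + mzg_pt_optCls (mzg_pt_cls N S) z →
        ff_LinEq O 𝒜 C (IsLocalRing.ResidueField ↥A) Λ lead
          (ff_ptIdeal (IsLocalRing.ResidueField ↥A) (mzg_pt_opt P0 Pκ w))
          (ff_ptIdeal (IsLocalRing.ResidueField ↥A) (mzg_pt_opt P0 Pκ x))
          (ff_ptIdeal (IsLocalRing.ResidueField ↥A) (mzg_pt_opt P0 Pκ y))
          (ff_ptIdeal (IsLocalRing.ResidueField ↥A) (mzg_pt_opt P0 Pκ z))) ∧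
      (∀ z, ff_Uniq O 𝒜 C (IsLocalRing.ResidueField ↥A) Λ lead
        (ff_ptIdeal (IsLocalRing.ResidueField ↥A) (Pκ z))) ∧
      (∀ σ ∈ L₁.fixingSubgroup, (∀ x ∈ S, σ • x ∈ S) → ∀ z z' : ↥S,
        (z' : JZero N) = σ • (z : JZero N) →
        ∀ a i, ff_symFun PK a i z' = σ (ff_symFun PK a i z)) ∧
      (∀ z z', z ≠ z' → ∃ a i, ff_symFun PK a i z ≠ ff_symFun PK a i z') ∧
      (∀ z z' : ↥S,
        (∀ (a : 𝒜) (i : ℕ),
          ((Finset.univ : Finset (Fin g)).val.map fun j => Pκ z j a).esymm i =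
            ((Finset.univ : Finset (Fin g)).val.map fun j => Pκ z' j a).esymm i) →
        reductionModL A N (z : JZero N) = reductionModL A N (z' : JZero N))

/-- [GEO-SEP], from the abstract form to `reductionModL`. -/
theorem mzg_pt_red_eq (N : ℕ) [NeZero N] (A : ValuationSubring ff_Qb)
    (hE : ReductionInputsModL A N) (x y : JZero N)
    (h : ∀ Z Z' : Divisor.degZero (K := ff_Qb) (F := ↥(modularFunctionFieldBar N)),
      Pic0.mk Z = x → Pic0.mk Z' = y →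
      Finsupp.mapDomain (placeReductionModL hE) (Z : Divisor ff_Qb ↥(modularFunctionFieldBar N)) -
        Finsupp.mapDomain (placeReductionModL hE)
          (Z' : Divisor ff_Qb ↥(modularFunctionFieldBar N)) ∈
        Divisor.principal (K := IsLocalRing.ResidueField ↥A)
          (F := ↥(modularFunctionFieldFullC (IsLocalRing.ResidueField ↥A) N))) :
    reductionModL A N x = reductionModL A N y := by
  obtain ⟨Z, rfl⟩ := Pic0.mk_surjective x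
  obtain ⟨Z', rfl⟩ := Pic0.mk_surjective y
  have h0 := h Z Z' rfl rfl
  rw [reductionModL_mk hE, reductionModL_mk hE]
  refine (QuotientAddGroup.eq_iff_sub_mem).mpr ?_
  rw [AddSubgroup.mem_addSubgroupOf]
  exact h0

/-- the instance at ONE place `A` over a generic level `L → Q̄` with `ffi_LvlOK`. -/
theorem mzg_inst_of_level (N : ℕ) [NeZero N] (ℓ : ℕ) (hℓ : ℓ.Prime) (hℓN : ¬ ℓ ∣ N)
    (hPKG : ffi_SeamPKG N ℓ)
    (A : ValuationSubring ff_Qb) (hA : A.LiesOverPrime ℓ) (hE : ReductionInputsModL A N)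
    (L : Type) [Field L] [Algebra ℚ L] [Algebra L ff_Qb] [IsScalarTower ℚ L ff_Qb]
    (lvl : ffi_LvlOK A L ℓ) :
    ∃ (L₁ : IntermediateField ℚ ff_Qb)
    (O : Type) (_ : CommRing O) (_ : IsDomain O) (_ : IsDiscreteValuationRing O)
    (_ : Algebra O ff_Qb) (_ : Algebra O (IsLocalRing.ResidueField ↥A))
    (_ : IsAlgClosed (IsLocalRing.ResidueField ↥A))
    (𝒜 : Type) (_ : CommRing 𝒜) (_ : Algebra O 𝒜) (C : Type) (_ : CommRing C) (_ : Algebra O C)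
    (π : O) (Λ : ℕ → Submodule O 𝒜) (lead : ∀ m, ↥(Λ m) →ₗ[O] C) (g n m0 c0 : ℕ),
    (∀ a : ff_Qb, a ∈ L₁ ↔ ∀ σ ∈ A.inertiaSubgroupIn ℚ, σ a = a) ∧
    (∀ a ∈ L₁, a ∈ A.nonunits → a / (ℓ : ff_Qb) ∈ A) ∧
    Set.range (algebraMap O ff_Qb) = (A : Set ff_Qb) ∩ (L₁ : Set ff_Qb) ∧
    (∀ (o : O) (h : algebraMap O ff_Qb o ∈ A),
      IsLocalRing.residue ↥A ⟨_, h⟩ = algebraMap O (IsLocalRing.ResidueField ↥A) o) ∧
    ff_IsPkg O 𝒜 C π ff_Qb (IsLocalRing.ResidueField ↥A) Λ lead g n m0 c0 ∧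
    ∀ S : Set (JZero N), S.Finite →
    ∃ (PK : ↥S → Fin g → 𝒜 →ₐ[O] ff_Qb)
      (Pκ : ↥S → Fin g → 𝒜 →ₐ[O] IsLocalRing.ResidueField ↥A)
      (P0 : Fin g → 𝒜 →ₐ[O] O),
      (∀ z j a, ∃ h : PK z j a ∈ A, IsLocalRing.residue ↥A ⟨_, h⟩ = Pκ z j a) ∧
      (∀ w x y z : Option ↥S,
        mzg_pt_optCls (mzg_pt_cls N S) w + mzg_pt_optCls (mzg_pt_cls N S) x =
          mzg_pt_optCls (mzg_pt_cls N S) y + mzg_pt_optCls (mzg_pt_cls N S) z →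
        ff_LinEq O 𝒜 C ff_Qb Λ lead
          (ff_ptIdeal ff_Qb (mzg_pt_opt P0 PK w)) (ff_ptIdeal ff_Qb (mzg_pt_opt P0 PK x))
          (ff_ptIdeal ff_Qb (mzg_pt_opt P0 PK y)) (ff_ptIdeal ff_Qb (mzg_pt_opt P0 PK z))) ∧
      (∀ z, ff_Uniq O 𝒜 C ff_Qb Λ lead (ff_ptIdeal ff_Qb (PK z))) ∧
      (∀ w x y z : Option ↥S,
        mzg_pt_optCls (mzg_pt_cls N S) w + mzg_pt_optCls (mzg_pt_cls N S) x =
          mzg_pt_optCls (mzg_pt_cls N S) y + mzg_pt_optCls (mzg_pt_cls N S) z →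
        ff_LinEq O 𝒜 C (IsLocalRing.ResidueField ↥A) Λ lead
          (ff_ptIdeal (IsLocalRing.ResidueField ↥A) (mzg_pt_opt P0 Pκ w))
          (ff_ptIdeal (IsLocalRing.ResidueField ↥A) (mzg_pt_opt P0 Pκ x))
          (ff_ptIdeal (IsLocalRing.ResidueField ↥A) (mzg_pt_opt P0 Pκ y))
          (ff_ptIdeal (IsLocalRing.ResidueField ↥A) (mzg_pt_opt P0 Pκ z))) ∧
      (∀ z, ff_Uniq O 𝒜 C (IsLocalRing.ResidueField ↥A) Λ lead
        (ff_ptIdeal (IsLocalRing.ResidueField ↥A) (Pκ z))) ∧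
      (∀ σ ∈ L₁.fixingSubgroup, (∀ x ∈ S, σ • x ∈ S) → ∀ z z' : ↥S,
        (z' : JZero N) = σ • (z : JZero N) →
        ∀ a i, ff_symFun PK a i z' = σ (ff_symFun PK a i z)) ∧
      (∀ z z', z ≠ z' → ∃ a i, ff_symFun PK a i z ≠ ff_symFun PK a i z') ∧
      (∀ z z' : ↥S,
        (∀ (a : 𝒜) (i : ℕ),
          ((Finset.univ : Finset (Fin g)).val.map fun j => Pκ z j a).esymm i =
            ((Finset.univ : Finset (Fin g)).val.map fun j => Pκ z' j a).esymm i) →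
        reductionModL A N (z : JZero N) = reductionModL A N (z' : JZero N)) := by
  letI algκ : Algebra ↥(ffi_O A L) (IsLocalRing.ResidueField ↥A) := ffi_algOκ A L
  haveI := lvl.algClosed
  haveI := lvl.dvr
  have res : ffi_ResOK A L (IsLocalRing.ResidueField ↥A) (IsLocalRing.residue ↥A) :=
    ⟨IsLocalRing.residue_surjective, fun a => by
      rw [IsLocalRing.residue_eq_zero_iff, A.mem_nonunits_iff_exists_mem_maximalIdeal]
      exact ⟨fun h => ⟨a.2, h⟩, fun ⟨_, h⟩ => h⟩, fun _ => rfl⟩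
  obtain ⟨g, n, m0, c0, ιK, ικ, hD⟩ := hPKG hℓ hℓN A hA L lvl
  refine ⟨(IsScalarTower.toAlgHom ℚ L ff_Qb).fieldRange, ↥(ffi_O A L), inferInstance,
    inferInstance, lvl.dvr, inferInstance, algκ, lvl.algClosed, ↥(ffi_A1 A L N), inferInstance,
    inferInstance, ffi_gC ↥(ffi_O A L) (ffi_j L N), inferInstance, inferInstance,
    ((ℓ : ℕ) : ↥(ffi_O A L)), ffi_gLam ↥(ffi_O A L) (ffi_j L N),
    ffi_gLead ↥(ffi_O A L) (ffi_j L N), g, n, m0, c0, ?_, ?_, ?_, ?_, hD.pkg, ?_⟩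
  · intro a
    exact lvl.fix a
  · rintro a ⟨c, rfl⟩ ha
    exact lvl.unr c ha
  · ext a
    constructor
    · rintro ⟨o, rfl⟩
      exact ⟨o.2, ⟨(o : L), rfl⟩⟩
    · rintro ⟨haA, ⟨c, rfl⟩⟩
      exact ⟨⟨c, haA⟩, rfl⟩
  · intro o h
    rfl
  · intro S hS
    obtain ⟨PK, Pκ, P0, h1, h2, h3, h4, h5, h6, h7, h8⟩ :=
      mzg_pt_of_level N ℓ hℓ hℓN A hA L lvl (IsLocalRing.ResidueField ↥A) (IsLocalRing.residue ↥A)
        res (placeReductionModL hE) (isPlaceReductionModL_placeReductionModL hE)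
        hE.choose_spec.2 g n m0 c0 ιK ικ hD S hS
    refine ⟨PK, Pκ, P0, h1, h2, h3, h4, h5, ?_, h7, ?_⟩
    · intro σ hσ hstab z z' hzz' a i
      refine h6 σ (fun c => ?_) hstab z z' hzz' a i
      exact hσ ⟨algebraMap L ff_Qb c, ⟨c, rfl⟩⟩
    · intro z z' hzz'
      exact mzg_pt_red_eq N A hE _ _ (h8 z z' hzz')

/-- **[GEO], the instance: closed theorem** for every prime `ℓ ∤ N`. -/
theorem mzg_inst (N : ℕ) [NeZero N] (ℓ : ℕ) [Fact ℓ.Prime] (hℓN : ¬ ℓ ∣ N) :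
    mzg_SeamINST N ℓ := by
  have hℓ : ℓ.Prime := Fact.out
  have hPKG : ffi_SeamPKG N ℓ :=
    ffi_pkg_of_seams N ℓ (ffi_ch N ℓ) ffi_fb1 ffi_fb2 ffi_gn ffi_pd ffi_gr (ffi_dk N ℓ)
      (ffi_dkap N ℓ)
  intro A hA
  exact mzg_inst_of_level N ℓ hℓ hℓN hPKG A hA (rpw_nodeE N ℓ hℓ hℓN A hA) ↥(ffi_L A)
    (ffi_lvi ℓ A hA)

end Fermat.Agent.MZ
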