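/-
Project MAZUR (S15), cell [GEO] (owner: helper27): THE FINAL ASSEMBLY of the cell.
Prefix `mzg_fin_`, `mzg_`.

`theorem mzg_final : mzg_stmt N ℓ k` for every prime `ℓ ∤ N`:

  for every place `A` of `Q̄` over `ℓ`, with `Γ = I_A` (the inertia group), `O = A ∩ Q̄^{I_A}`,
  `G = J₀(N)[ℓ^k]`, and every FINITE set `T ⊆ J₀(N)(Q̄)` of points `x₀` with `ℓ^k x₀` fixed by `I_A`:
  there is ONE order `H` on `G` (`mzo_IsOrder`, vocabulary of `MZ/Hopf/Defs.lean`) such that for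
  every `x₀ ∈ T` the Kummer cocycle `σ ↦ σ x₀ - x₀` (`σ ∈ I_A`) is `H`-flat (`mzo_Flat`).

The local setting `mzo_Ctx ℓ O Q̄ A Γ` is `mzg_ctx` (`MZ/Geo/Ctx.lean`, helper5).

Route (= `FF/AssemblyGeom.lean` for torsors): ONE call of `mzg_pt_of_level` (`MZ/Geo/PtWire.lean`) on
the finite set `S = ⋃_{x₀ ∈ T ∪ {0}} (x₀ + G)`; the families `t ↦ D_{x₀ + t}` indexed by `G`;
`ffa_HHyp` for each of them by (G-GAL) (`mzg_hh_of_gal`, helper26); `Δ`, (co), (∇) by two-family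
residuation (`mzg_add_co_all`, `mzg_add_nabla_all`, helper5).
-/
import Mathlib
import Fermat.Agent.FF.Assembly
import Fermat.Agent.MZ.Geo.PtWire
import Fermat.Agent.MZ.Geo.HHypOf
import Fermat.Agent.MZ.Geo.Decomp
import Fermat.Agent.MZ.Geo.Ctx

set_option autoImplicit false
set_option linter.style.haveILetI false
set_option linter.unusedSectionVars false

noncomputable section

namespace Fermat.Agent.MZ

open ModularCurve AlgebraicCurve IntermediateField Fermat.Agent.JT3 Fermat.Agent.FF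
open scoped TensorProduct

/-! ### the finite set `S` and the families indexed by `G` -/

section Sets

variable (N : ℕ) [NeZero N] (m : ℤ)

/-- the set `⋃_{x₀ ∈ T ∪ {0}} (x₀ + J₀(N)[m])`. -/
def mzg_fin_S (T : Set (JZero N)) : Set (JZero N) :=
  {x | ∃ x₀ ∈ insert (0 : JZero N) T, ∃ t : ↥(Submodule.torsionBy ℤ (JZero N) m),
    x = x₀ + (t : JZero N)}

theorem mzg_fin_S_finite [Finite ↥(Submodule.torsionBy ℤ (JZero N) m)] (T : Set (JZero N))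
    (hT : T.Finite) : (mzg_fin_S N m T).Finite := by
  have h : mzg_fin_S N m T = ⋃ x₀ ∈ insert (0 : JZero N) T,
      Set.range (fun t : ↥(Submodule.torsionBy ℤ (JZero N) m) => x₀ + (t : JZero N)) := by
    ext x
    simp only [mzg_fin_S, Set.mem_setOf_eq, Set.mem_iUnion, Set.mem_range, exists_prop]
    constructor
    · rintro ⟨x₀, hx₀, t, rfl⟩
      exact ⟨x₀, hx₀, t, rfl⟩
    · rintro ⟨x₀, hx₀, t, rfl⟩
      exact ⟨x₀, hx₀, t, rfl⟩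
  rw [h]
  exact (hT.insert 0).biUnion fun x₀ _ => Set.finite_range _

/-- the embedding `t ↦ x₀ + t` of `G` into `S`. -/
def mzg_fin_e (T : Set (JZero N)) (x₀ : JZero N) (hx₀ : x₀ ∈ insert (0 : JZero N) T) :
    ↥(Submodule.torsionBy ℤ (JZero N) m) → ↥(mzg_fin_S N m T) :=
  fun t => ⟨x₀ + (t : JZero N), x₀, hx₀, t, rfl⟩

@[simp] theorem mzg_fin_e_coe (T : Set (JZero N)) (x₀ : JZero N)
    (hx₀ : x₀ ∈ insert (0 : JZero N) T) (t : ↥(Submodule.torsionBy ℤ (JZero N) m)) :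
    ((mzg_fin_e N m T x₀ hx₀ t : ↥(mzg_fin_S N m T)) : JZero N) = x₀ + (t : JZero N) := rfl

/-- the values of the Kummer cocycle lie in `G`. -/
theorem mzg_fin_zmem (σ : ff_GQ) (x₀ : JZero N) (h : σ • (m • x₀) = m • x₀) :
    σ • x₀ - x₀ ∈ Submodule.torsionBy ℤ (JZero N) m := by
  rw [Submodule.mem_torsionBy_iff, smul_sub, smul_comm m σ x₀, h, sub_self]

/-- `σ (x₀ + t) = x₀ + t'` with `t' = (σ x₀ - x₀) + σ t ∈ G`. -/
theorem mzg_fin_tot (σ : ff_GQ) (x₀ : JZero N) (h : σ • (m • x₀) = m • x₀)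
    (t : ↥(Submodule.torsionBy ℤ (JZero N) m)) :
    ∃ t' : ↥(Submodule.torsionBy ℤ (JZero N) m),
      x₀ + (t' : JZero N) = σ • (x₀ + (t : JZero N)) := by
  refine ⟨⟨(σ • x₀ - x₀) + σ • (t : JZero N),
    add_mem (mzg_fin_zmem N m σ x₀ h) (σ • t).2⟩, ?_⟩
  rw [smul_add]
  change x₀ + ((σ • x₀ - x₀) + σ • (t : JZero N)) = _
  abel

/-- `S` is stable under every `σ` fixing the `m x₀`. -/
theorem mzg_fin_stable (T : Set (JZero N)) (σ : ff_GQ)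
    (h : ∀ x₀ ∈ insert (0 : JZero N) T, σ • (m • x₀) = m • x₀) :
    ∀ x ∈ mzg_fin_S N m T, σ • x ∈ mzg_fin_S N m T := by
  rintro x ⟨x₀, hx₀, t, rfl⟩
  obtain ⟨t', ht'⟩ := mzg_fin_tot N m σ x₀ (h x₀ hx₀) t
  exact ⟨x₀, hx₀, t', ht'.symm⟩

theorem mzg_fin_fix_insert (T : Set (JZero N)) (Γ : Set ff_GQ)
    (hT : ∀ x₀ ∈ T, ∀ σ ∈ Γ, σ • (m • x₀) = m • x₀) :
    ∀ x₀ ∈ insert (0 : JZero N) T, ∀ σ ∈ Γ, σ • (m • x₀) = m • x₀ := by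
  intro x₀ hx₀ σ hσ
  rcases hx₀ with rfl | hx₀
  · rw [smul_zero]
    exact map_zero (DistribSMul.toAddMonoidHom (JZero N) σ)
  · exact hT x₀ hx₀ σ hσ

end Sets

/-! ### the core: from the points on `S` to the order and the torsor orders -/

section Core

variable {N : ℕ} [NeZero N] {m : ℤ} [Finite ↥(Submodule.torsionBy ℤ (JZero N) m)]
  (A : ValuationSubring ff_Qb) (L₁ : IntermediateField ℚ ff_Qb)
  {O : Type} [CommRing O] [IsDomain O] [IsDiscreteValuationRing O] [Algebra O ff_Qb]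
  {κ : Type} [Field κ] [IsAlgClosed κ] [Algebra O κ] (res : ↥A →+* κ)
  {𝒜 : Type} [CommRing 𝒜] [Algebra O 𝒜] {C : Type} [CommRing C] [Algebra O C] {π : O}
  {Λ : ℕ → Submodule O 𝒜} {lead : ∀ m, ↥(Λ m) →ₗ[O] C} {g n m0 c0 : ℕ}
  (T : Set (JZero N))
  (PK : ↥(mzg_fin_S N m T) → Fin g → 𝒜 →ₐ[O] ff_Qb)
  (Pκ : ↥(mzg_fin_S N m T) → Fin g → 𝒜 →ₐ[O] κ)
  (P0 : Fin g → 𝒜 →ₐ[O] O)

/-- the family `t ↦ D_{x₀ + t}` indexed by `G`: generic fibre. -/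
abbrev mzg_fin_PK (x₀ : JZero N) (hx₀ : x₀ ∈ insert (0 : JZero N) T) :
    ↥(Submodule.torsionBy ℤ (JZero N) m) → Fin g → 𝒜 →ₐ[O] ff_Qb :=
  fun t => PK (mzg_fin_e N m T x₀ hx₀ t)

/-- the family `t ↦ D_{x₀ + t}` indexed by `G`: special fibre. -/
abbrev mzg_fin_Pκ (x₀ : JZero N) (hx₀ : x₀ ∈ insert (0 : JZero N) T) :
    ↥(Submodule.torsionBy ℤ (JZero N) m) → Fin g → 𝒜 →ₐ[O] κ :=
  fun t => Pκ (mzg_fin_e N m T x₀ hx₀ t)

/-- the inertia group fixes `L₁`. -/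
theorem mzg_fin_mem_fixing
    (hfix : ∀ a : ff_Qb, a ∈ L₁ ↔ ∀ σ ∈ A.inertiaSubgroupIn ℚ, σ a = a)
    (σ : ff_GQ) (hσ : σ ∈ A.inertiaSubgroupIn ℚ) : σ ∈ L₁.fixingSubgroup :=
  fun y => (hfix (y : ff_Qb)).1 y.2 σ hσ

/-- equivariance of the family `x₀ + G` under the inertia group, for the relation
`x₀ + t' = σ (x₀ + t)`. -/
theorem mzg_fin_eqv
    (hfix : ∀ a : ff_Qb, a ∈ L₁ ↔ ∀ σ ∈ A.inertiaSubgroupIn ℚ, σ a = a)
    (hT : ∀ x₀ ∈ T, ∀ σ ∈ A.inertiaSubgroupIn ℚ, σ • (m • x₀) = m • x₀)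
    (h6 : ∀ σ ∈ L₁.fixingSubgroup, (∀ x ∈ mzg_fin_S N m T, σ • x ∈ mzg_fin_S N m T) →
      ∀ z z' : ↥(mzg_fin_S N m T), (z' : JZero N) = σ • (z : JZero N) →
      ∀ a i, ff_symFun PK a i z' = σ (ff_symFun PK a i z))
    (x₀ : JZero N) (hx₀ : x₀ ∈ insert (0 : JZero N) T) :
    ∀ σ ∈ (A.inertiaSubgroupIn ℚ : Set ff_GQ),
      ∀ t t' : ↥(Submodule.torsionBy ℤ (JZero N) m),
      x₀ + (t' : JZero N) = σ • (x₀ + (t : JZero N)) → ∀ (a : 𝒜) (i : ℕ),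
      ff_symFun (mzg_fin_PK T PK x₀ hx₀) a i t' = σ (ff_symFun (mzg_fin_PK T PK x₀ hx₀) a i t) := by
  intro σ hσ t t' htt' a i
  have hT' := mzg_fin_fix_insert N m T (A.inertiaSubgroupIn ℚ : Set ff_GQ) hT
  exact h6 σ (mzg_fin_mem_fixing A L₁ hfix σ hσ)
    (mzg_fin_stable N m T σ fun y hy => hT' y hy σ hσ)
    (mzg_fin_e N m T x₀ hx₀ t) (mzg_fin_e N m T x₀ hx₀ t') htt' a i

/-- **`ffa_HHyp` for the family `x₀ + G`.** -/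
theorem mzg_fin_hhyp
    (hfix : ∀ a : ff_Qb, a ∈ L₁ ↔ ∀ σ ∈ A.inertiaSubgroupIn ℚ, σ a = a)
    (hO : Set.range (algebraMap O ff_Qb) = (A : Set ff_Qb) ∩ (L₁ : Set ff_Qb))
    (hker : ∀ c : ↥A, res c = 0 ↔ (c : ff_Qb) ∈ A.nonunits)
    (hresO : ∀ (o : O) (h : algebraMap O ff_Qb o ∈ A), res ⟨_, h⟩ = algebraMap O κ o)
    (hT : ∀ x₀ ∈ T, ∀ σ ∈ A.inertiaSubgroupIn ℚ, σ • (m • x₀) = m • x₀)
    (h1 : ∀ z j a, ∃ h : PK z j a ∈ A, res ⟨_, h⟩ = Pκ z j a)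
    (h6 : ∀ σ ∈ L₁.fixingSubgroup, (∀ x ∈ mzg_fin_S N m T, σ • x ∈ mzg_fin_S N m T) →
      ∀ z z' : ↥(mzg_fin_S N m T), (z' : JZero N) = σ • (z : JZero N) →
      ∀ a i, ff_symFun PK a i z' = σ (ff_symFun PK a i z))
    (x₀ : JZero N) (hx₀ : x₀ ∈ insert (0 : JZero N) T) :
    ffa_HHyp (mzg_fin_PK T PK x₀ hx₀) (mzg_fin_Pκ T Pκ x₀ hx₀) A.toSubring res := by
  have hT' := mzg_fin_fix_insert N m T (A.inertiaSubgroupIn ℚ : Set ff_GQ) hT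
  refine mzg_hh_of_gal A L₁ O hO κ res hker hresO (A.inertiaSubgroupIn ℚ : Set ff_GQ)
    (fun y => hfix y) ↥(Submodule.torsionBy ℤ (JZero N) m)
    (fun σ t t' => x₀ + (t' : JZero N) = σ • (x₀ + (t : JZero N))) ?_ ?_ 𝒜 g
    (mzg_fin_PK T PK x₀ hx₀) (mzg_fin_Pκ T Pκ x₀ hx₀) (fun z j a => h1 _ j a)
    (mzg_fin_eqv A L₁ T PK hfix hT h6 x₀ hx₀)
  · intro σ hσ t
    exact mzg_fin_tot N m σ x₀ (hT' x₀ hx₀ σ hσ) t
  · intro σ hσ t'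
    have hσ' : σ⁻¹ ∈ (A.inertiaSubgroupIn ℚ : Set ff_GQ) := inv_mem hσ
    obtain ⟨t, ht⟩ := mzg_fin_tot N m σ⁻¹ x₀ (hT' x₀ hx₀ σ⁻¹ hσ') t'
    refine ⟨t, ?_⟩
    rw [ht, smul_inv_smul]

/-- the relation of the classes behind (co) / `Δ`. -/
theorem mzg_fin_rel_co (x₀ : JZero N) (hx₀ : x₀ ∈ insert (0 : JZero N) T)
    (h0 : (0 : JZero N) ∈ insert (0 : JZero N) T)
    (x y : ↥(Submodule.torsionBy ℤ (JZero N) m)) :
    mzg_pt_optCls (mzg_pt_cls N (mzg_fin_S N m T)) (some (mzg_fin_e N m T x₀ hx₀ (x + y))) +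
      mzg_pt_optCls (mzg_pt_cls N (mzg_fin_S N m T)) none =
    mzg_pt_optCls (mzg_pt_cls N (mzg_fin_S N m T)) (some (mzg_fin_e N m T x₀ hx₀ x)) +
      mzg_pt_optCls (mzg_pt_cls N (mzg_fin_S N m T)) (some (mzg_fin_e N m T 0 h0 y)) := by
  change (x₀ + ((x + y : ↥(Submodule.torsionBy ℤ (JZero N) m)) : JZero N)) + 0 =
    (x₀ + (x : JZero N)) + (0 + (y : JZero N))
  rw [Submodule.coe_add]
  abel

/-- the relation of the classes behind (∇). -/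
theorem mzg_fin_rel_nabla (x₀ : JZero N) (hx₀ : x₀ ∈ insert (0 : JZero N) T)
    (h0 : (0 : JZero N) ∈ insert (0 : JZero N) T)
    (x y : ↥(Submodule.torsionBy ℤ (JZero N) m)) :
    mzg_pt_optCls (mzg_pt_cls N (mzg_fin_S N m T)) (some (mzg_fin_e N m T 0 h0 (y - x))) +
      mzg_pt_optCls (mzg_pt_cls N (mzg_fin_S N m T)) (some (mzg_fin_e N m T x₀ hx₀ x)) =
    mzg_pt_optCls (mzg_pt_cls N (mzg_fin_S N m T)) (some (mzg_fin_e N m T x₀ hx₀ y)) +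
      mzg_pt_optCls (mzg_pt_cls N (mzg_fin_S N m T)) none := by
  change (0 + ((y - x : ↥(Submodule.torsionBy ℤ (JZero N) m)) : JZero N)) + (x₀ + (x : JZero N)) =
    (x₀ + (y : JZero N)) + 0
  rw [Submodule.coe_sub]
  abel

/-- **The core of the final assembly**: from the points on `S` to the order on `G` and the torsor
orders of the Kummer cocycles of the `x₀ ∈ T`. -/
theorem mzg_fin_core
    (hfix : ∀ a : ff_Qb, a ∈ L₁ ↔ ∀ σ ∈ A.inertiaSubgroupIn ℚ, σ a = a)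
    (hO : Set.range (algebraMap O ff_Qb) = (A : Set ff_Qb) ∩ (L₁ : Set ff_Qb))
    (hker : ∀ c : ↥A, res c = 0 ↔ (c : ff_Qb) ∈ A.nonunits)
    (hresO : ∀ (o : O) (h : algebraMap O ff_Qb o ∈ A), res ⟨_, h⟩ = algebraMap O κ o)
    (hpkg : ff_IsPkg O 𝒜 C π ff_Qb κ Λ lead g n m0 c0)
    (hT : ∀ x₀ ∈ T, ∀ σ ∈ A.inertiaSubgroupIn ℚ, σ • (m • x₀) = m • x₀)
    (h1 : ∀ z j a, ∃ h : PK z j a ∈ A, res ⟨_, h⟩ = Pκ z j a)
    (h2 : ∀ w x y z : Option ↥(mzg_fin_S N m T),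
      mzg_pt_optCls (mzg_pt_cls N (mzg_fin_S N m T)) w +
        mzg_pt_optCls (mzg_pt_cls N (mzg_fin_S N m T)) x =
        mzg_pt_optCls (mzg_pt_cls N (mzg_fin_S N m T)) y +
          mzg_pt_optCls (mzg_pt_cls N (mzg_fin_S N m T)) z →
      ff_LinEq O 𝒜 C ff_Qb Λ lead
        (ff_ptIdeal ff_Qb (mzg_pt_opt P0 PK w)) (ff_ptIdeal ff_Qb (mzg_pt_opt P0 PK x))
        (ff_ptIdeal ff_Qb (mzg_pt_opt P0 PK y)) (ff_ptIdeal ff_Qb (mzg_pt_opt P0 PK z)))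
    (h3 : ∀ z, ff_Uniq O 𝒜 C ff_Qb Λ lead (ff_ptIdeal ff_Qb (PK z)))
    (h4 : ∀ w x y z : Option ↥(mzg_fin_S N m T),
      mzg_pt_optCls (mzg_pt_cls N (mzg_fin_S N m T)) w +
        mzg_pt_optCls (mzg_pt_cls N (mzg_fin_S N m T)) x =
        mzg_pt_optCls (mzg_pt_cls N (mzg_fin_S N m T)) y +
          mzg_pt_optCls (mzg_pt_cls N (mzg_fin_S N m T)) z →
      ff_LinEq O 𝒜 C κ Λ lead
        (ff_ptIdeal κ (mzg_pt_opt P0 Pκ w)) (ff_ptIdeal κ (mzg_pt_opt P0 Pκ x))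
        (ff_ptIdeal κ (mzg_pt_opt P0 Pκ y)) (ff_ptIdeal κ (mzg_pt_opt P0 Pκ z)))
    (h5 : ∀ z, ff_Uniq O 𝒜 C κ Λ lead (ff_ptIdeal κ (Pκ z)))
    (h6 : ∀ σ ∈ L₁.fixingSubgroup, (∀ x ∈ mzg_fin_S N m T, σ • x ∈ mzg_fin_S N m T) →
      ∀ z z' : ↥(mzg_fin_S N m T), (z' : JZero N) = σ • (z : JZero N) →
      ∀ a i, ff_symFun PK a i z' = σ (ff_symFun PK a i z))
    (h7 : ∀ z z', z ≠ z' → ∃ a i, ff_symFun PK a i z ≠ ff_symFun PK a i z') :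
    ∃ H : Subalgebra O (↥(Submodule.torsionBy ℤ (JZero N) m) → ff_Qb),
      mzo_IsOrder A ↥(A.inertiaSubgroupIn ℚ) ↥(Submodule.torsionBy ℤ (JZero N) m) H ∧
      ∀ x₀ ∈ T, ∀ z : ↥(A.inertiaSubgroupIn ℚ) → ↥(Submodule.torsionBy ℤ (JZero N) m),
        (∀ σ, ((z σ : ↥(Submodule.torsionBy ℤ (JZero N) m)) : JZero N) =
          (σ : ff_GQ) • x₀ - x₀) →
        mzo_Flat A ↥(A.inertiaSubgroupIn ℚ) H z := by
  have h0 : (0 : JZero N) ∈ insert (0 : JZero N) T := Set.mem_insert _ _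
  have hH : ∀ (x₀ : JZero N) (hx₀ : x₀ ∈ insert (0 : JZero N) T),
      ffa_HHyp (mzg_fin_PK T PK x₀ hx₀) (mzg_fin_Pκ T Pκ x₀ hx₀) A.toSubring res :=
    mzg_fin_hhyp A L₁ res T PK Pκ hfix hO hker hresO hT h1 h6
  have hint : ∀ (x₀ : JZero N) (hx₀ : x₀ ∈ insert (0 : JZero N) T),
      ∀ φ ∈ ff_symAlg (mzg_fin_PK T PK x₀ hx₀), ∀ x, φ x ∈ A := fun x₀ hx₀ =>
    mzg_hh_int A L₁ O hO _ 𝒜 g _ (fun z j a => (h1 _ j a).1)
  have heqv : ∀ (x₀ : JZero N) (hx₀ : x₀ ∈ insert (0 : JZero N) T),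
      ∀ φ ∈ ff_symAlg (mzg_fin_PK T PK x₀ hx₀),
        mzg_q_Eq (A.inertiaSubgroupIn ℚ : Set ff_GQ)
          (fun σ (t t' : ↥(Submodule.torsionBy ℤ (JZero N) m)) =>
            x₀ + (t' : JZero N) = σ • (x₀ + (t : JZero N))) φ := fun x₀ hx₀ =>
    mzg_hh_eqv A L₁ O hO (A.inertiaSubgroupIn ℚ : Set ff_GQ) (fun y => hfix y) _ _ 𝒜 g _
      (mzg_fin_eqv A L₁ T PK hfix hT h6 x₀ hx₀)
  have hsep : ∀ (x₀ : JZero N) (hx₀ : x₀ ∈ insert (0 : JZero N) T)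
      (x y : ↥(Submodule.torsionBy ℤ (JZero N) m)), x ≠ y →
      ∃ φ ∈ ff_symAlg (mzg_fin_PK T PK x₀ hx₀), φ x ≠ φ y := by
    intro x₀ hx₀ x y hxy
    have hne : mzg_fin_e N m T x₀ hx₀ x ≠ mzg_fin_e N m T x₀ hx₀ y := by
      intro h
      have h' := congrArg (fun z : ↥(mzg_fin_S N m T) => (z : JZero N)) h
      simp only [mzg_fin_e_coe] at h'
      exact hxy (Subtype.ext (add_left_cancel h'))
    obtain ⟨a, i, hai⟩ := h7 _ _ hne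
    exact ⟨ff_symFun (mzg_fin_PK T PK x₀ hx₀) a i, Algebra.subset_adjoin ⟨a, i, rfl⟩, hai⟩
  refine ⟨ff_symAlg (mzg_fin_PK T PK 0 h0), ⟨hint 0 h0, ?_, hsep 0 h0, (hH 0 h0).fin, ?_⟩, ?_⟩
  · -- equivariance of the order
    intro φ hφ σ x
    refine heqv 0 h0 φ hφ (σ : ff_GQ) σ.2 x (σ • x) ?_
    change (0 : JZero N) + (σ : ff_GQ) • (x : JZero N) = (σ : ff_GQ) • (0 + (x : JZero N))
    rw [zero_add, zero_add]
  · -- `Δ`
    exact mzg_add_co_all hpkg (hH 0 h0) (hH 0 h0) (mzg_fin_PK T PK 0 h0) (mzg_fin_Pκ T Pκ 0 h0) P0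
      (fun x y => x + y)
      (fun x y => h2 (some (mzg_fin_e N m T 0 h0 (x + y))) none (some (mzg_fin_e N m T 0 h0 x))
        (some (mzg_fin_e N m T 0 h0 y)) (mzg_fin_rel_co T 0 h0 h0 x y))
      (fun x y => h3 (mzg_fin_e N m T 0 h0 (x + y)))
      (fun x y => h4 (some (mzg_fin_e N m T 0 h0 (x + y))) none (some (mzg_fin_e N m T 0 h0 x))
        (some (mzg_fin_e N m T 0 h0 y)) (mzg_fin_rel_co T 0 h0 h0 x y))
      (fun x y => h5 (mzg_fin_e N m T 0 h0 (x + y)))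
  · -- the torsor orders
    intro x₀ hx₀T z hz
    have hx₀ : x₀ ∈ insert (0 : JZero N) T := Set.mem_insert_of_mem _ hx₀T
    refine ⟨ff_symAlg (mzg_fin_PK T PK x₀ hx₀), ⟨hint x₀ hx₀, ?_, hsep x₀ hx₀, (hH x₀ hx₀).fin,
      ?_, ?_⟩⟩
    · -- twisted equivariance
      intro φ hφ σ x
      refine heqv x₀ hx₀ φ hφ (σ : ff_GQ) σ.2 x (σ • x + z σ) ?_
      change x₀ + ((σ : ff_GQ) • (x : JZero N) + ((z σ : ↥(Submodule.torsionBy ℤ (JZero N) m)) :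
        JZero N)) = (σ : ff_GQ) • (x₀ + (x : JZero N))
      rw [hz σ, smul_add]
      abel
    · -- (co)
      exact mzg_add_co_all hpkg (hH x₀ hx₀) (hH 0 h0) (mzg_fin_PK T PK x₀ hx₀)
        (mzg_fin_Pκ T Pκ x₀ hx₀) P0 (fun x y => x + y)
        (fun x y => h2 (some (mzg_fin_e N m T x₀ hx₀ (x + y))) none
          (some (mzg_fin_e N m T x₀ hx₀ x)) (some (mzg_fin_e N m T 0 h0 y))
          (mzg_fin_rel_co T x₀ hx₀ h0 x y))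
        (fun x y => h3 (mzg_fin_e N m T x₀ hx₀ (x + y)))
        (fun x y => h4 (some (mzg_fin_e N m T x₀ hx₀ (x + y))) none
          (some (mzg_fin_e N m T x₀ hx₀ x)) (some (mzg_fin_e N m T 0 h0 y))
          (mzg_fin_rel_co T x₀ hx₀ h0 x y))
        (fun x y => h5 (mzg_fin_e N m T x₀ hx₀ (x + y)))
    · -- (∇)
      exact mzg_add_nabla_all hpkg (hH x₀ hx₀) (hH x₀ hx₀) (mzg_fin_PK T PK 0 h0)
        (mzg_fin_Pκ T Pκ 0 h0) P0 (fun x y => y - x)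
        (fun x y => h2 (some (mzg_fin_e N m T 0 h0 (y - x))) (some (mzg_fin_e N m T x₀ hx₀ x))
          (some (mzg_fin_e N m T x₀ hx₀ y)) none (mzg_fin_rel_nabla T x₀ hx₀ h0 x y))
        (fun x y => h3 (mzg_fin_e N m T 0 h0 (y - x)))
        (fun x y => h4 (some (mzg_fin_e N m T 0 h0 (y - x))) (some (mzg_fin_e N m T x₀ hx₀ x))
          (some (mzg_fin_e N m T x₀ hx₀ y)) none (mzg_fin_rel_nabla T x₀ hx₀ h0 x y))
        (fun x y => h5 (mzg_fin_e N m T 0 h0 (y - x)))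

end Core

/-! ### the statement and the closed theorem -/

/-- **[GEO] → [HOPF]**: at every place `A` of `Q̄` over `ℓ`, for every finite set `T` of points `x₀`
of `J₀(N)(Q̄)` with `ℓ^k x₀` fixed by the inertia group `I_A`, there is ONE order `H` on
`G = J₀(N)[ℓ^k]` over `O = A ∩ Q̄^{I_A}` for which the Kummer cocycles `σ ↦ σ x₀ - x₀` (`σ ∈ I_A`) of
all the `x₀ ∈ T` are flat.  (The local setting `mzo_Ctx ℓ O Q̄ A I_A` is `mzg_ctx`.) -/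
def mzg_stmt (N : ℕ) [NeZero N] (ℓ k : ℕ) : Prop :=
  ∀ A : ValuationSubring ff_Qb, A.LiesOverPrime ℓ →
  ∀ T : Set (JZero N), T.Finite →
    (∀ x₀ ∈ T, ∀ σ ∈ A.inertiaSubgroupIn ℚ,
      σ • (((ℓ : ℤ) ^ k) • x₀) = ((ℓ : ℤ) ^ k) • x₀) →
    ∃ H : Subalgebra ↥(ffi_O A ↥(ffi_L A))
        (↥(Submodule.torsionBy ℤ (JZero N) ((ℓ : ℤ) ^ k)) → ff_Qb),
      mzo_IsOrder A ↥(A.inertiaSubgroupIn ℚ)
        ↥(Submodule.torsionBy ℤ (JZero N) ((ℓ : ℤ) ^ k)) H ∧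
      ∀ x₀ ∈ T, ∀ z : ↥(A.inertiaSubgroupIn ℚ) →
          ↥(Submodule.torsionBy ℤ (JZero N) ((ℓ : ℤ) ^ k)),
        (∀ σ, ((z σ : ↥(Submodule.torsionBy ℤ (JZero N) ((ℓ : ℤ) ^ k))) : JZero N) =
          (σ : ff_GQ) • x₀ - x₀) →
        mzo_Flat A ↥(A.inertiaSubgroupIn ℚ) H z

/-- the final assembly over a generic level `L → Q̄` with `ffi_LvlOK`. -/
theorem mzg_final_of_level (N : ℕ) [NeZero N] (ℓ : ℕ) [Fact ℓ.Prime] (hℓN : ¬ ℓ ∣ N) (k : ℕ)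
    (hPKG : ffi_SeamPKG N ℓ)
    (A : ValuationSubring ff_Qb) (hA : A.LiesOverPrime ℓ) (hE : ReductionInputsModL A N)
    (L : Type) [Field L] [Algebra ℚ L] [Algebra L ff_Qb] [IsScalarTower ℚ L ff_Qb]
    (lvl : ffi_LvlOK A L ℓ)
    (T : Set (JZero N)) (hTfin : T.Finite)
    (hT : ∀ x₀ ∈ T, ∀ σ ∈ A.inertiaSubgroupIn ℚ,
      σ • (((ℓ : ℤ) ^ k) • x₀) = ((ℓ : ℤ) ^ k) • x₀) :
    ∃ H : Subalgebra ↥(ffi_O A L) (↥(Submodule.torsionBy ℤ (JZero N) ((ℓ : ℤ) ^ k)) → ff_Qb),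
      mzo_IsOrder A ↥(A.inertiaSubgroupIn ℚ)
        ↥(Submodule.torsionBy ℤ (JZero N) ((ℓ : ℤ) ^ k)) H ∧
      ∀ x₀ ∈ T, ∀ z : ↥(A.inertiaSubgroupIn ℚ) →
          ↥(Submodule.torsionBy ℤ (JZero N) ((ℓ : ℤ) ^ k)),
        (∀ σ, ((z σ : ↥(Submodule.torsionBy ℤ (JZero N) ((ℓ : ℤ) ^ k))) : JZero N) =
          (σ : ff_GQ) • x₀ - x₀) →
        mzo_Flat A ↥(A.inertiaSubgroupIn ℚ) H z := by
  have hℓ : ℓ.Prime := Fact.out
  letI algκ : Algebra ↥(ffi_O A L) (IsLocalRing.ResidueField ↥A) := ffi_algOκ A L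
  haveI := lvl.algClosed
  haveI := lvl.dvr
  haveI := ff_finite_tors N ℓ k
  have res : ffi_ResOK A L (IsLocalRing.ResidueField ↥A) (IsLocalRing.residue ↥A) :=
    ⟨IsLocalRing.residue_surjective, fun a => by
      rw [IsLocalRing.residue_eq_zero_iff, A.mem_nonunits_iff_exists_mem_maximalIdeal]
      exact ⟨fun h => ⟨a.2, h⟩, fun ⟨_, h⟩ => h⟩, fun _ => rfl⟩
  obtain ⟨g, n, m0, c0, ιK, ικ, hD⟩ := hPKG hℓ hℓN A hA L lvl
  obtain ⟨PK, Pκ, P0, h1, h2, h3, h4, h5, h6, h7, -⟩ :=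
    mzg_pt_of_level N ℓ hℓ hℓN A hA L lvl (IsLocalRing.ResidueField ↥A) (IsLocalRing.residue ↥A)
      res (placeReductionModL hE) (isPlaceReductionModL_placeReductionModL hE)
      hE.choose_spec.2 g n m0 c0 ιK ικ hD (mzg_fin_S N ((ℓ : ℤ) ^ k) T)
      (mzg_fin_S_finite N ((ℓ : ℤ) ^ k) T hTfin)
  refine mzg_fin_core A (IsScalarTower.toAlgHom ℚ L ff_Qb).fieldRange (IsLocalRing.residue ↥A) T
    PK Pκ P0 (fun a => lvl.fix a) ?_ res.ker (fun o h => rfl) hD.pkg hT h1 h2 h3 h4 h5 ?_ h7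
  · ext a
    constructor
    · rintro ⟨o, rfl⟩
      exact ⟨o.2, ⟨(o : L), rfl⟩⟩
    · rintro ⟨haA, ⟨c, rfl⟩⟩
      exact ⟨⟨c, haA⟩, rfl⟩
  · intro σ hσ hstab z z' hzz' a i
    refine h6 σ (fun c => ?_) hstab z z' hzz' a i
    exact hσ ⟨algebraMap L ff_Qb c, ⟨c, rfl⟩⟩

/-- **[GEO]: the closed theorem** for every prime `ℓ ∤ N`. -/
theorem mzg_final (N : ℕ) [NeZero N] (ℓ : ℕ) [Fact ℓ.Prime] (hℓN : ¬ ℓ ∣ N) (k : ℕ) :
    mzg_stmt N ℓ k := by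
  have hℓ : ℓ.Prime := Fact.out
  have hPKG : ffi_SeamPKG N ℓ :=
    ffi_pkg_of_seams N ℓ (ffi_ch N ℓ) ffi_fb1 ffi_fb2 ffi_gn ffi_pd ffi_gr (ffi_dk N ℓ)
      (ffi_dkap N ℓ)
  intro A hA T hTfin hT
  exact mzg_final_of_level N ℓ hℓN k hPKG A hA (rpw_nodeE N ℓ hℓ hℓN A hA) ↥(ffi_L A)
    (ffi_lvi ℓ A hA) T hTfin hT

end Fermat.Agent.MZ
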